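import Mathlib
import Fermat.Prelude.Def_AlgebraicGeometry_RelativePicardFunctor

/-!
# S25 / block GLUE / leaf G3 (a): `Scheme.Modules.IsInvertible` is local

All statements are about the Prelude predicate `AlgebraicGeometry.Scheme.Modules.IsInvertible`
(local triviality of `(Scheme.Modules.pullback U.ι).obj M`).

Main results (namespace `Fermat.Agent.S25.H986`):

* `isInvertible_of_iso`, `isInvertible_iff_of_iso` : invariance under isomorphism.
* `pullbackIsoUnit_of_restrictIsoUnit`, `restrictIsoUnit_of_pullbackIsoUnit` : trivialisations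
  with respect to `restrictFunctor` and `pullback` correspond.
* `isInvertible_iff_restrict` : `IsInvertible M` iff every point has an open neighbourhood `U`
  with `(restrictFunctor U.ι).obj M ≅ unit`.
* `isInvertible_of_isOpenImmersion_cover` : if `f i : Y i ⟶ X` are jointly surjective open
  immersions and every `(pullback (f i)).obj M` is invertible, then `M` is invertible.
* `isInvertible_of_iSup_eq_top` : the same for a family of opens `U i` with `⨆ i, U i = ⊤`
  (this is G3 (a) verbatim), `isInvertible_of_openCover` for a `Scheme.OpenCover`.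
* `isInvertible_restrictFunctor`: restriction along an open immersion preserves invertibility.
-/

set_option autoImplicit false

universe u

open CategoryTheory AlgebraicGeometry

namespace Fermat.Agent.S25.H986

/-- Invertibility is invariant under isomorphism. -/
theorem isInvertible_of_iso {X : Scheme.{u}} {M N : X.Modules} (e : M ≅ N)
    (hM : Scheme.Modules.IsInvertible M) : Scheme.Modules.IsInvertible N := by
  refine ⟨fun x => ?_⟩
  obtain ⟨U, hxU, ⟨eU⟩⟩ := hM.1 x
  exact ⟨U, hxU, ⟨(Scheme.Modules.pullback U.ι).mapIso e.symm ≪≫ eU⟩⟩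

theorem isInvertible_iff_of_iso {X : Scheme.{u}} {M N : X.Modules} (e : M ≅ N) :
    Scheme.Modules.IsInvertible M ↔ Scheme.Modules.IsInvertible N :=
  ⟨isInvertible_of_iso e, isInvertible_of_iso e.symm⟩

/-- A trivialisation of the restriction gives a trivialisation of the pullback. -/
noncomputable def pullbackIsoUnit_of_restrictIsoUnit {X Y : Scheme.{u}} (f : Y ⟶ X)
    [IsOpenImmersion f] {M : X.Modules}
    (e : (Scheme.Modules.restrictFunctor f).obj M ≅ SheafOfModules.unit Y.ringCatSheaf) :
    (Scheme.Modules.pullback f).obj M ≅ SheafOfModules.unit Y.ringCatSheaf :=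
  ((Scheme.Modules.restrictFunctorIsoPullback f).app M).symm ≪≫ e

/-- A trivialisation of the pullback gives a trivialisation of the restriction. -/
noncomputable def restrictIsoUnit_of_pullbackIsoUnit {X Y : Scheme.{u}} (f : Y ⟶ X)
    [IsOpenImmersion f] {M : X.Modules}
    (e : (Scheme.Modules.pullback f).obj M ≅ SheafOfModules.unit Y.ringCatSheaf) :
    (Scheme.Modules.restrictFunctor f).obj M ≅ SheafOfModules.unit Y.ringCatSheaf :=
  (Scheme.Modules.restrictFunctorIsoPullback f).app M ≪≫ e

/-- `IsInvertible` can be tested with `restrictFunctor` instead of `pullback`. -/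
theorem isInvertible_iff_restrict {X : Scheme.{u}} (M : X.Modules) :
    Scheme.Modules.IsInvertible M ↔
      ∀ x : X, ∃ U : X.Opens, x ∈ U ∧
        Nonempty ((Scheme.Modules.restrictFunctor U.ι).obj M ≅
          SheafOfModules.unit U.toScheme.ringCatSheaf) := by
  constructor
  · intro h x
    obtain ⟨U, hxU, ⟨e⟩⟩ := h.1 x
    exact ⟨U, hxU, ⟨restrictIsoUnit_of_pullbackIsoUnit U.ι e⟩⟩
  · intro h
    refine ⟨fun x => ?_⟩
    obtain ⟨U, hxU, ⟨e⟩⟩ := h x
    exact ⟨U, hxU, ⟨pullbackIsoUnit_of_restrictIsoUnit U.ι e⟩⟩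

/-- Transport of a trivialisation on `V ⊆ Y` along an open immersion `f : Y ⟶ X` to a
trivialisation on the image open `f ''ᵁ V ⊆ X`. -/
noncomputable def pullbackImageIsoUnit {X Y : Scheme.{u}} (f : Y ⟶ X) [IsOpenImmersion f]
    (M : X.Modules) (V : Y.Opens)
    (e : (Scheme.Modules.pullback V.ι).obj ((Scheme.Modules.pullback f).obj M) ≅
      SheafOfModules.unit V.toScheme.ringCatSheaf) :
    (Scheme.Modules.pullback (f ''ᵁ V).ι).obj M ≅
      SheafOfModules.unit (f ''ᵁ V).toScheme.ringCatSheaf :=
  have hfact : (f.isoImage V).inv ≫ V.ι ≫ f = (f ''ᵁ V).ι := by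
    rw [← Scheme.Hom.isoImage_hom_ι, Iso.inv_hom_id_assoc]
  ((Scheme.Modules.pullbackCongr hfact).app M).symm ≪≫
    ((Scheme.Modules.pullbackComp _ _).app M).symm ≪≫
    (Scheme.Modules.pullback (f.isoImage V).inv).mapIso
      (((Scheme.Modules.pullbackComp _ _).app M).symm ≪≫ e) ≪≫
    Scheme.Modules.pullbackUnitIso (f.isoImage V).inv

/-- **G3 (a), general form.** Invertibility can be checked on a jointly surjective family of
open immersions. -/
theorem isInvertible_of_isOpenImmersion_cover {X : Scheme.{u}} {ι : Type*}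
    {Y : ι → Scheme.{u}} (f : ∀ i, Y i ⟶ X) [∀ i, IsOpenImmersion (f i)]
    (hf : ∀ x : X, ∃ i, x ∈ Set.range (f i)) (M : X.Modules)
    (h : ∀ i, Scheme.Modules.IsInvertible ((Scheme.Modules.pullback (f i)).obj M)) :
    Scheme.Modules.IsInvertible M := by
  refine ⟨fun x => ?_⟩
  obtain ⟨i, y, rfl⟩ := hf x
  obtain ⟨V, hyV, ⟨e⟩⟩ := (h i).1 y
  exact ⟨f i ''ᵁ V, ⟨y, hyV, rfl⟩, ⟨pullbackImageIsoUnit (f i) M V e⟩⟩

/-- **G3 (a).** Invertibility is local on an open cover `U i` of `X`
(restriction = `pullback (U i).ι`). -/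
theorem isInvertible_of_iSup_eq_top {X : Scheme.{u}} {ι : Type*} (U : ι → X.Opens)
    (hU : ⨆ i, U i = ⊤) (M : X.Modules)
    (h : ∀ i, Scheme.Modules.IsInvertible ((Scheme.Modules.pullback (U i).ι).obj M)) :
    Scheme.Modules.IsInvertible M := by
  refine isInvertible_of_isOpenImmersion_cover (fun i => (U i).ι) (fun x => ?_) M h
  have hx : x ∈ ⨆ i, U i := hU ▸ TopologicalSpace.Opens.mem_top x
  obtain ⟨i, hi⟩ := TopologicalSpace.Opens.mem_iSup.mp hx
  exact ⟨i, by simpa using hi⟩

/-- **G3 (a)** for a Zariski cover in the sense of `Scheme.OpenCover`. -/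
theorem isInvertible_of_openCover {X : Scheme.{u}} (𝒰 : X.OpenCover) (M : X.Modules)
    (h : ∀ i, Scheme.Modules.IsInvertible ((Scheme.Modules.pullback (𝒰.f i)).obj M)) :
    Scheme.Modules.IsInvertible M :=
  isInvertible_of_isOpenImmersion_cover 𝒰.f (fun x => ⟨𝒰.idx x, 𝒰.covers x⟩) M h

/-- Restriction (`restrictFunctor`) along an open immersion preserves invertibility. -/
theorem isInvertible_restrictFunctor {X Y : Scheme.{u}} (f : Y ⟶ X) [IsOpenImmersion f]
    {M : X.Modules} (hM : Scheme.Modules.IsInvertible M) :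
    Scheme.Modules.IsInvertible ((Scheme.Modules.restrictFunctor f).obj M) :=
  isInvertible_of_iso ((Scheme.Modules.restrictFunctorIsoPullback f).app M).symm (hM.pullback f)

/-- **G3 (a)**, `restrictFunctor` form. -/
theorem isInvertible_of_iSup_eq_top_restrict {X : Scheme.{u}} {ι : Type*} (U : ι → X.Opens)
    (hU : ⨆ i, U i = ⊤) (M : X.Modules)
    (h : ∀ i, Scheme.Modules.IsInvertible ((Scheme.Modules.restrictFunctor (U i).ι).obj M)) :
    Scheme.Modules.IsInvertible M :=
  isInvertible_of_iSup_eq_top U hU M fun i =>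
    isInvertible_of_iso ((Scheme.Modules.restrictFunctorIsoPullback (U i).ι).app M) (h i)

/-- Invertibility is local: iff version. -/
theorem isInvertible_iff_of_iSup_eq_top {X : Scheme.{u}} {ι : Type*} (U : ι → X.Opens)
    (hU : ⨆ i, U i = ⊤) (M : X.Modules) :
    Scheme.Modules.IsInvertible M ↔
      ∀ i, Scheme.Modules.IsInvertible ((Scheme.Modules.pullback (U i).ι).obj M) :=
  ⟨fun h _ => h.pullback _, isInvertible_of_iSup_eq_top U hU M⟩

end Fermat.Agent.S25.H986
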