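import Fermat.Agent.S25.DefsDict

/-!
# S25 / block DICT: `Stmt.DictIso`, direction `RIso M M' → G.IsIso G'`

Purely sectionwise: an isomorphism `φ : L ≅ L'` of modules on `C_A` induces additive
isomorphisms on sections over the preimages of `U₀`, `U₁`, `U₀ ⊓ U₁`; transported along the
identifications of `Corr`, they are linear over `A ⊗[k] B` (check on the generators `a ⊗ 1`,
`1 ⊗ b`) and compatible with the restriction maps.
-/

set_option autoImplicit false
universe u
open CategoryTheory CategoryTheory.Limits AlgebraicGeometry AlgebraicGeometry.RelPicard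
  NeronModelInfra GoodReductionJacobian
open scoped TensorProduct

namespace Fermat.Agent.S25.H986

open Fermat.Agent.S25

noncomputable section

variable {k : Type u} [Field k] {C : Scheme.{u}} {c : C ⟶ Spec (CommRingCat.of k)}
  {A : Type u} [CommRing A] [Algebra k A]

/-- An additive map between modules over `A ⊗[k] B` which commutes with the action of the
elements `a ⊗ 1` and `1 ⊗ b` is linear. -/
theorem map_tmul_smul_of_generators {B : Type u} [CommRing B] [Algebra k B]
    {N N' : Type u} [AddCommGroup N] [Module (A ⊗[k] B) N] [AddCommGroup N']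
    [Module (A ⊗[k] B) N'] (h : N →+ N')
    (hA : ∀ (a : A) (n : N), h ((a ⊗ₜ[k] (1 : B)) • n) = (a ⊗ₜ[k] (1 : B)) • h n)
    (hB : ∀ (b : B) (n : N), h (((1 : A) ⊗ₜ[k] b) • n) = ((1 : A) ⊗ₜ[k] b) • h n)
    (r : A ⊗[k] B) (n : N) : h (r • n) = r • h n := by
  induction r using TensorProduct.induction_on generalizing n with
  | zero => simp
  | tmul a b =>
    have : a ⊗ₜ[k] b = (a ⊗ₜ[k] (1 : B)) * ((1 : A) ⊗ₜ[k] b) := by
      rw [Algebra.TensorProduct.tmul_mul_tmul, mul_one, one_mul]
    rw [this, mul_smul, hA, hB, mul_smul]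
  | add r s hr hs => rw [add_smul, map_add, hr, hs, add_smul]

/-- The map on sections induced by a morphism of modules, transported along two
identifications of sections in the sense of `IsSectionsIso`, is `A ⊗[k] B`-linear. -/
theorem isSectionsIso_transport_smul {L L' : (pullback c (specStr k A)).Modules}
    (φ : L ⟶ L') (U : C.Opens) {B : Type u} [CommRing B] [Algebra k B] (i : Γ(C, U) ≃+* B)
    {N N' : Type u} [AddCommGroup N] [Module (A ⊗[k] B) N] [AddCommGroup N']
    [Module (A ⊗[k] B) N']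
    (e : Γ(L, preimageOpen (c := c) A U) ≃+ N) (e' : Γ(L', preimageOpen (c := c) A U) ≃+ N')
    (he : IsSectionsIso A L U i e) (he' : IsSectionsIso A L' U i e')
    (r : A ⊗[k] B) (n : N) :
    e' (φ.app _ (e.symm (r • n))) = r • e' (φ.app _ (e.symm n)) := by
  let h : N →+ N' :=
    (e'.toAddMonoidHom.comp (φ.app (preimageOpen (c := c) A U)).hom).comp e.symm.toAddMonoidHom
  have key := map_tmul_smul_of_generators (A := A) (k := k) h (fun a n => ?_) (fun b n => ?_) r n
  · exact key
  · change e' (φ.app _ (e.symm ((a ⊗ₜ[k] (1 : B)) • n))) = (a ⊗ₜ[k] (1 : B)) • e' (φ.app _ (e.symm n))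
    have h1 : e.symm ((a ⊗ₜ[k] (1 : B)) • n) =
        baseToSections (c := c) A (preimageOpen (c := c) A U) a • e.symm n := by
      apply e.injective
      rw [he.1, AddEquiv.apply_symm_apply, AddEquiv.apply_symm_apply]
    rw [h1, Scheme.Modules.Hom.app_smul, he'.1]
  · change e' (φ.app _ (e.symm (((1 : A) ⊗ₜ[k] b) • n))) = ((1 : A) ⊗ₜ[k] b) • e' (φ.app _ (e.symm n))
    obtain ⟨f, rfl⟩ := i.surjective b
    have h1 : e.symm (((1 : A) ⊗ₜ[k] i f) • n) =
        curveToSections (c := c) A U f • e.symm n := by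
      apply e.injective
      rw [he.2, AddEquiv.apply_symm_apply, AddEquiv.apply_symm_apply]
    rw [h1, Scheme.Modules.Hom.app_smul, he'.2]

/-- The linear equivalence induced by an isomorphism of modules, transported along two
identifications of sections in the sense of `IsSectionsIso`. -/
def sectionsLinearEquiv {L L' : (pullback c (specStr k A)).Modules}
    (φ : L ≅ L') (U : C.Opens) {B : Type u} [CommRing B] [Algebra k B] (i : Γ(C, U) ≃+* B)
    {N N' : Type u} [AddCommGroup N] [Module (A ⊗[k] B) N] [AddCommGroup N']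
    [Module (A ⊗[k] B) N']
    (e : Γ(L, preimageOpen (c := c) A U) ≃+ N) (e' : Γ(L', preimageOpen (c := c) A U) ≃+ N')
    (he : IsSectionsIso A L U i e) (he' : IsSectionsIso A L' U i e') :
    N ≃ₗ[A ⊗[k] B] N' where
  toFun n := e' (φ.hom.app _ (e.symm n))
  invFun n := e (φ.inv.app _ (e'.symm n))
  left_inv n := by
    have h : φ.inv.app (preimageOpen (c := c) A U) (φ.hom.app _ (e.symm n)) = e.symm n := by
      rw [← ConcreteCategory.comp_apply, ← Scheme.Modules.Hom.comp_app, Iso.hom_inv_id]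
      rfl
    simp only [AddEquiv.symm_apply_apply, h, AddEquiv.apply_symm_apply]
  right_inv n := by
    have h : φ.hom.app (preimageOpen (c := c) A U) (φ.inv.app _ (e'.symm n)) = e'.symm n := by
      rw [← ConcreteCategory.comp_apply, ← Scheme.Modules.Hom.comp_app, Iso.inv_hom_id]
      rfl
    simp only [AddEquiv.symm_apply_apply, h, AddEquiv.apply_symm_apply]
  map_add' m n := by simp only [map_add]
  map_smul' r n := isSectionsIso_transport_smul φ.hom U i e e' he he' r n

@[simp]
theorem sectionsLinearEquiv_apply {L L' : (pullback c (specStr k A)).Modules}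
    (φ : L ≅ L') (U : C.Opens) {B : Type u} [CommRing B] [Algebra k B] (i : Γ(C, U) ≃+* B)
    {N N' : Type u} [AddCommGroup N] [Module (A ⊗[k] B) N] [AddCommGroup N']
    [Module (A ⊗[k] B) N']
    (e : Γ(L, preimageOpen (c := c) A U) ≃+ N) (e' : Γ(L', preimageOpen (c := c) A U) ≃+ N')
    (he : IsSectionsIso A L U i e) (he' : IsSectionsIso A L' U i e') (n : N) :
    sectionsLinearEquiv φ U i e e' he he' n = e' (φ.hom.app _ (e.symm n)) := rfl

variable {ε : SchemeHomOver (𝟙 (Spec (CommRingCat.of k))) c}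

/-- Naturality of `Hom.app` with respect to `resMod`. -/
theorem app_resMod {X : Scheme.{u}} {M N : X.Modules} (φ : M ⟶ N) {U V : X.Opens} (h : V ≤ U)
    (s : Γ(M, U)) : φ.app V (resMod M h s) = resMod N h (φ.app U s) :=
  NatTrans.naturality_apply φ.mapPresheaf (homOfLE h).op s

/-- **DictIso, direction `→`**: isomorphic line bundles have isomorphic gluing data. -/
theorem glueDatum_isIso_of_iso (Ch : ChartOf c ε) {L L' : (pullback c (specStr k A)).Modules}
    (G G' : CurveGD k Ch.B₀ Ch.B₁ Ch.B₀₁ A) (hG : Corr Ch A L G) (hG' : Corr Ch A L' G')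
    (φ : L ≅ L') : G.IsIso G' := by
  obtain ⟨e₀, e₁, e₀₁, h₀, h₁, h₀₁, hr₀, hr₁⟩ := hG
  obtain ⟨e₀', e₁', e₀₁', h₀', h₁', h₀₁', hr₀', hr₁'⟩ := hG'
  refine ⟨⟨sectionsLinearEquiv φ Ch.U₀ Ch.i₀ e₀ e₀' h₀ h₀',
    sectionsLinearEquiv φ Ch.U₁ Ch.i₁ e₁ e₁' h₁ h₁',
    sectionsLinearEquiv φ (Ch.U₀ ⊓ Ch.U₁) Ch.i₀₁ e₀₁ e₀₁' h₀₁ h₀₁', fun s => ?_, fun s => ?_⟩⟩
  · rw [sectionsLinearEquiv_apply, sectionsLinearEquiv_apply]
    have h := hr₀ (e₀.symm s)
    rw [AddEquiv.apply_symm_apply] at h
    rw [← h, AddEquiv.symm_apply_apply, app_resMod, hr₀']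
  · rw [sectionsLinearEquiv_apply, sectionsLinearEquiv_apply]
    have h := hr₁ (e₁.symm s)
    rw [AddEquiv.apply_symm_apply] at h
    rw [← h, AddEquiv.symm_apply_apply, app_resMod, hr₁']

/-- **DictIso, direction `→`**, in the shape of the frozen statement. -/
theorem dictIso_mp (Ch : ChartOf c ε) (M M' : RigidifiedLineBundle c ε (specStr k A))
    (G G' : CurveGD k Ch.B₀ Ch.B₁ Ch.B₀₁ A) (hG : Corr Ch A M.L G) (hG' : Corr Ch A M'.L G')
    (h : RIso M M') : G.IsIso G' :=
  glueDatum_isIso_of_iso Ch G G' hG hG' h.some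

end

end Fermat.Agent.S25.H986
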