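import Mathlib
import Fermat.Prelude.Def_AlgebraicGeometry_RelativePicardFunctor
import Fermat.Agent.S25.H986.InvertibleLocal

/-!
# S25 / block GLUE / leaf G3 (b): invertible modules are locally free and quasi-coherent

Main results (namespace `Fermat.Agent.S25.H986`):

* `overIsoUnit` : a trivialisation `(restrictFunctor U.ι).obj M ≅ unit` yields an isomorphism
  `M.over U ≅ unit (X.ringCatSheaf.over U)` of sheaves of modules on the slice site.
* `isLocallyFree_of_forall_exists_restrictIsoUnit`,
  `isLocallyFree_of_isInvertible` : an invertible module is `SheafOfModules.IsLocallyFree`.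
* `isQuasicoherent_of_isInvertible` : an invertible module is `SheafOfModules.IsQuasicoherent`.
* `isFinitePresentation_of_isInvertible` : ... and of finite presentation.
-/

set_option autoImplicit false

universe u

open CategoryTheory AlgebraicGeometry Limits

namespace Fermat.Agent.S25.H986

/-- A trivialisation of the restriction of `M` to the open `U` gives a trivialisation of
`M.over U` on the slice site. -/
noncomputable def overIsoUnit {X : Scheme.{u}} (M : X.Modules) (U : X.Opens)
    (e : (Scheme.Modules.restrictFunctor U.ι).obj M ≅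
      SheafOfModules.unit U.toScheme.ringCatSheaf) :
    M.over U ≅ SheafOfModules.unit (X.ringCatSheaf.over U) :=
  (Scheme.Modules.overEquiv U).fullyFaithfulFunctor.preimageIso
    ((Scheme.Modules.overFunctorEquiv U).app M ≪≫ e ≪≫
      (Scheme.Modules.restrictUnitIso U.ι).symm ≪≫
      ((Scheme.Modules.overFunctorEquiv U).app (SheafOfModules.unit X.ringCatSheaf)).symm)

/-- The free module on one generator is the unit. -/
noncomputable def freePUnitIsoUnit {C : Type*} [Category C]
    {J : GrothendieckTopology C} (R : Sheaf J RingCat.{u})
    [HasWeakSheafify J AddCommGrpCat.{u}] [J.WEqualsLocallyBijective AddCommGrpCat.{u}] :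
    SheafOfModules.free (R := R) PUnit.{u + 1} ≅ SheafOfModules.unit R :=
  coproductUniqueIso (fun _ : PUnit.{u + 1} => SheafOfModules.unit R)

/-- Generating sections (a single one) of a sheaf of modules isomorphic to the unit. -/
noncomputable def generatingSectionsOfIsoUnit {C : Type*} [Category C]
    {J : GrothendieckTopology C} {R : Sheaf J RingCat.{u}}
    [HasWeakSheafify J AddCommGrpCat.{u}] [J.WEqualsLocallyBijective AddCommGrpCat.{u}]
    {N : SheafOfModules.{u} R} (e : N ≅ SheafOfModules.unit R) : N.GeneratingSections where
  I := PUnit.{u + 1}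
  s := N.freeHomEquiv (freePUnitIsoUnit R ≪≫ e.symm).hom
  epi := by
    rw [Equiv.symm_apply_apply]
    exact IsIso.epi_of_iso _

theorem generatingSectionsOfIsoUnit_π {C : Type*} [Category C]
    {J : GrothendieckTopology C} {R : Sheaf J RingCat.{u}}
    [HasWeakSheafify J AddCommGrpCat.{u}] [J.WEqualsLocallyBijective AddCommGrpCat.{u}]
    {N : SheafOfModules.{u} R} (e : N ≅ SheafOfModules.unit R) :
    (generatingSectionsOfIsoUnit e).π = (freePUnitIsoUnit R ≪≫ e.symm).hom :=
  Equiv.symm_apply_apply _ _

instance isIso_generatingSectionsOfIsoUnit_π {C : Type*} [Category C]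
    {J : GrothendieckTopology C} {R : Sheaf J RingCat.{u}}
    [HasWeakSheafify J AddCommGrpCat.{u}] [J.WEqualsLocallyBijective AddCommGrpCat.{u}]
    {N : SheafOfModules.{u} R} (e : N ≅ SheafOfModules.unit R) :
    IsIso (generatingSectionsOfIsoUnit e).π := by
  rw [generatingSectionsOfIsoUnit_π]
  exact Iso.isIso_hom _

/-- Local generators data attached to a family of local trivialisations. -/
noncomputable def localGeneratorsDataOfTrivialization {X : Scheme.{u}} (M : X.Modules)
    {ι : Type*} (U : ι → X.Opens) (hU : ⨆ i, U i = ⊤)
    (e : ∀ i, (Scheme.Modules.restrictFunctor (U i).ι).obj M ≅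
      SheafOfModules.unit (U i).toScheme.ringCatSheaf) :
    SheafOfModules.LocalGeneratorsData M where
  I := ι
  X := U
  coversTop := (Opens.coversTop_iff X U).mpr hU
  generators i := generatingSectionsOfIsoUnit (overIsoUnit M (U i) (e i))

instance isLocallyFreeData_localGeneratorsDataOfTrivialization {X : Scheme.{u}}
    (M : X.Modules) {ι : Type*} (U : ι → X.Opens) (hU : ⨆ i, U i = ⊤)
    (e : ∀ i, (Scheme.Modules.restrictFunctor (U i).ι).obj M ≅
      SheafOfModules.unit (U i).toScheme.ringCatSheaf) :
    (localGeneratorsDataOfTrivialization M U hU e).IsLocallyFreeData where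
  isIso i := isIso_generatingSectionsOfIsoUnit_π (overIsoUnit M (U i) (e i))

/-- A module which is trivial on the members of an open cover is locally free. -/
theorem isLocallyFree_of_trivialization {X : Scheme.{u}} (M : X.Modules)
    {ι : Type*} (U : ι → X.Opens) (hU : ⨆ i, U i = ⊤)
    (e : ∀ i, Nonempty ((Scheme.Modules.restrictFunctor (U i).ι).obj M ≅
      SheafOfModules.unit (U i).toScheme.ringCatSheaf)) :
    M.IsLocallyFree :=
  (localGeneratorsDataOfTrivialization M U hU fun i => (e i).some).isLocallyFree

/-- **G3 (b), strong form.** An invertible module is locally free. -/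
theorem isLocallyFree_of_isInvertible {X : Scheme.{u}} {M : X.Modules}
    (hM : Scheme.Modules.IsInvertible M) : M.IsLocallyFree := by
  have h := (isInvertible_iff_restrict M).mp hM
  choose U hxU e using h
  refine isLocallyFree_of_trivialization M U ?_ e
  exact eq_top_iff.mpr fun x _ => TopologicalSpace.Opens.mem_iSup.mpr ⟨x, hxU x⟩

/-- **G3 (b).** An invertible module is quasi-coherent. -/
theorem isQuasicoherent_of_isInvertible {X : Scheme.{u}} {M : X.Modules}
    (hM : Scheme.Modules.IsInvertible M) : M.IsQuasicoherent := by
  have h := isLocallyFree_of_isInvertible hM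
  obtain ⟨q, hq⟩ := h.exists_isLocallyFreeData
  exact q.quasiCoherentData.isQuasicoherent

end Fermat.Agent.S25.H986
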