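import Mathlib
import Fermat.Agent.S25.DefsDict
import Fermat.Agent.S25.H205.Box

/-!
# S25 / block DICT: functions on `C_A` over the preimage of an affine open of `C`

For an affine open `U ⊆ C`, the ring `Γ(C_A, pr₁⁻¹ U)` is generated by the images of `A` and of
`Γ(C, U)` (F4: it is the pushout `Γ(C, U) ⊗[k] A`).  Consequently an additive map between
modules over it which commutes with these two actions is linear.

* `subring_eq_top_of_isPushout` : in `CommRingCat`, a subring of a pushout containing the images
  of the two legs is everything.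
* `preimageOpen_subring_eq_top` : the statement for `Γ(C_A, pr₁⁻¹ U)`.
* `map_smul_of_generators` : linearity from the generators.
-/

set_option autoImplicit false

universe u

open CategoryTheory CategoryTheory.Limits AlgebraicGeometry AlgebraicGeometry.RelPicard
  NeronModelInfra TopologicalSpace Opposite

namespace Fermat.Agent.S25.H986

open Fermat.Agent.S25

noncomputable section

/-- In `CommRingCat`, a subring of a pushout which contains the images of the two legs is
everything. -/
theorem subring_eq_top_of_isPushout {R S₁ S₂ Q : CommRingCat.{u}} {f : R ⟶ S₁} {g : R ⟶ S₂}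
    {inl : S₁ ⟶ Q} {inr : S₂ ⟶ Q} (H : IsPushout f g inl inr) (S : Subring Q)
    (hl : ∀ a, inl a ∈ S) (hr : ∀ b, inr b ∈ S) : S = ⊤ := by
  let inlS : S₁ ⟶ CommRingCat.of S := CommRingCat.ofHom (inl.hom.codRestrict S hl)
  let inrS : S₂ ⟶ CommRingCat.of S := CommRingCat.ofHom (inr.hom.codRestrict S hr)
  let incl : CommRingCat.of S ⟶ Q := CommRingCat.ofHom S.subtype
  have hinl : inlS ≫ incl = inl := by ext a; rfl
  have hinr : inrS ≫ incl = inr := by ext b; rfl
  have hw : f ≫ inlS = g ≫ inrS := by
    ext a
    exact congr($(H.w) a)
  let u : Q ⟶ CommRingCat.of S := H.desc inlS inrS hw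
  have hu : u ≫ incl = 𝟙 Q := by
    apply H.hom_ext
    · rw [← Category.assoc, H.inl_desc, hinl, Category.comp_id]
    · rw [← Category.assoc, H.inr_desc, hinr, Category.comp_id]
  rw [eq_top_iff]
  intro q _
  have : (incl (u q) : Q) = q := congr($hu q)
  rw [← this]
  exact (u q).2

variable {k : Type u} [Field k] {C : Scheme.{u}} (c : C ⟶ Spec (CommRingCat.of k))
  (A : Type u) [CommRing A] [Algebra k A]

open Fermat.Agent.S25.H205 in
/-- For an affine open `U ⊆ C`, the ring `Γ(C_A, pr₁⁻¹ U)` is generated by the images of `A` and
of `Γ(C, U)`. -/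
theorem preimageOpen_subring_eq_top {U : C.Opens} (hU : IsAffineOpen U)
    (S : Subring Γ(pullback c (specStr k A), preimageOpen (c := c) A U))
    (hA : ∀ a : A, baseToSections (c := c) A (preimageOpen (c := c) A U) a ∈ S)
    (hB : ∀ f : Γ(C, U), curveToSections (c := c) A U f ∈ S) : S = ⊤ := by
  have H := isPushout_box c (specStr k A) hU (isAffineOpen_top (Spec (CommRingCat.of A)))
  have hle : preimageOpen (c := c) A U ≤ box c (specStr k A) U ⊤ := le_inf le_rfl le_top
  have hge : box c (specStr k A) U ⊤ ≤ preimageOpen (c := c) A U := inf_le_left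
  let ρ : Γ(pullback c (specStr k A), box c (specStr k A) U ⊤) ⟶
      Γ(pullback c (specStr k A), preimageOpen (c := c) A U) :=
    (pullback c (specStr k A)).presheaf.map (homOfLE hle).op
  have hS' : S.comap ρ.hom = ⊤ := by
    refine subring_eq_top_of_isPushout H _ (fun f => ?_) (fun b => ?_)
    · change ρ ((pullback.fst c (specStr k A)).appLE U _ _ f) ∈ S
      have h1 : (pullback.fst c (specStr k A)).appLE U (box c (specStr k A) U ⊤)
          (box_le_fst U ⊤) ≫ ρ = (pullback.fst c (specStr k A)).app U := by
        rw [Scheme.Hom.appLE_map, Scheme.Hom.app_eq_appLE]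
      have h2 : ρ ((pullback.fst c (specStr k A)).appLE U _ (box_le_fst U ⊤) f) =
          curveToSections (c := c) A U f := congr($h1 f)
      rw [h2]
      exact hB f
    · change ρ ((pullback.snd c (specStr k A)).appLE ⊤ _ _ b) ∈ S
      have h1 : (pullback.snd c (specStr k A)).appLE ⊤ (box c (specStr k A) U ⊤)
          (box_le_snd U ⊤) ≫ ρ =
          (pullback.snd c (specStr k A)).appTop ≫
            (pullback c (specStr k A)).presheaf.map
              (homOfLE (le_top : preimageOpen (c := c) A U ≤ ⊤)).op := by
        rw [Scheme.Hom.appLE_map]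
        rfl
      have h2 : ρ ((pullback.snd c (specStr k A)).appLE ⊤ _ (box_le_snd U ⊤) b) =
          baseToSections (c := c) A (preimageOpen (c := c) A U)
            ((Scheme.ΓSpecIso (CommRingCat.of A)).hom b) := by
        have h3 : ρ ((pullback.snd c (specStr k A)).appLE ⊤ _ (box_le_snd U ⊤) b) =
            (pullback c (specStr k A)).presheaf.map
              (homOfLE (le_top : preimageOpen (c := c) A U ≤ ⊤)).op
              ((pullback.snd c (specStr k A)).appTop b) := congr($h1 b)
        have h5 : (Scheme.ΓSpecIso (CommRingCat.of A)).inv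
            ((Scheme.ΓSpecIso (CommRingCat.of A)).hom b) = b :=
          congr($((Scheme.ΓSpecIso (CommRingCat.of A)).hom_inv_id) b)
        rw [h3]
        change _ = (pullback c (specStr k A)).presheaf.map
              (homOfLE (le_top : preimageOpen (c := c) A U ≤ ⊤)).op
              ((pullback.snd c (specStr k A)).appTop
                ((Scheme.ΓSpecIso (CommRingCat.of A)).inv
                  ((Scheme.ΓSpecIso (CommRingCat.of A)).hom b)))
        rw [h5]
      rw [h2]
      exact hA _
  rw [eq_top_iff]
  intro r _
  have h4 : ρ ((pullback c (specStr k A)).presheaf.map (homOfLE hge).op r) = r := by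
    change ((pullback c (specStr k A)).presheaf.map (homOfLE hle).op)
      ((pullback c (specStr k A)).presheaf.map (homOfLE hge).op r) = r
    rw [← CommRingCat.comp_apply, ← Functor.map_comp]
    have : (homOfLE hge).op ≫ (homOfLE hle).op = 𝟙 _ := Subsingleton.elim _ _
    rw [this, CategoryTheory.Functor.map_id]
    rfl
  rw [← h4]
  have : (pullback c (specStr k A)).presheaf.map (homOfLE hge).op r ∈ S.comap ρ.hom := by
    rw [hS']; trivial
  exact this

/-- An additive map between sections over `pr₁⁻¹ U` (`U` affine) which commutes with the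
actions of `A` and of `Γ(C, U)` is `Γ(C_A, pr₁⁻¹ U)`-linear. -/
theorem map_smul_of_generators {U : C.Opens} (hU : IsAffineOpen U)
    {L L' : (pullback c (specStr k A)).Modules}
    (h : Γ(L, preimageOpen (c := c) A U) →+ Γ(L', preimageOpen (c := c) A U))
    (hA : ∀ (a : A) (s : Γ(L, preimageOpen (c := c) A U)),
      h (baseToSections (c := c) A (preimageOpen (c := c) A U) a • s) =
        baseToSections (c := c) A (preimageOpen (c := c) A U) a • h s)
    (hB : ∀ (f : Γ(C, U)) (s : Γ(L, preimageOpen (c := c) A U)),
      h (curveToSections (c := c) A U f • s) = curveToSections (c := c) A U f • h s)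
    (r : Γ(pullback c (specStr k A), preimageOpen (c := c) A U))
    (s : Γ(L, preimageOpen (c := c) A U)) : h (r • s) = r • h s := by
  let S : Subring Γ(pullback c (specStr k A), preimageOpen (c := c) A U) :=
    { carrier := {r | ∀ s, h (r • s) = r • h s}
      mul_mem' := fun {a b} ha hb s => by
        change h ((a * b) • s) = (a * b) • h s
        rw [mul_smul, ha, hb, mul_smul]
      one_mem' := fun s => by
        change h ((1 : Γ(pullback c (specStr k A), preimageOpen (c := c) A U)) • s) = _
        rw [one_smul, one_smul]
      add_mem' := fun {a b} ha hb s => by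
        change h ((a + b) • s) = (a + b) • h s
        rw [add_smul, map_add, ha, hb, add_smul]
      zero_mem' := fun s => by
        change h ((0 : Γ(pullback c (specStr k A), preimageOpen (c := c) A U)) • s) = _
        rw [zero_smul, zero_smul, map_zero]
      neg_mem' := fun {a} ha s => by
        change h ((-a) • s) = (-a) • h s
        rw [neg_smul, map_neg, ha, neg_smul] }
  have hS : S = ⊤ := preimageOpen_subring_eq_top c A hU S hA hB
  have hr : r ∈ S := by rw [hS]; trivial
  exact hr s

end

end Fermat.Agent.S25.H986
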