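import Mathlib

/-!
# S25 / block DICT: morphisms out of a quasi-coherent module on `Spec R`

* `map_bijective_of_isIso_counit_app` : for an adjunction `L ⊣ R` and an object `N` at which the
  counit is an isomorphism, `R.map : (N ⟶ N') → (R.obj N ⟶ R.obj N')` is bijective.
* `moduleSpecΓ_map_bijective` : for a quasi-coherent module `N` on `Spec R` and any module `N'`,
  morphisms `N ⟶ N'` are the same as `R`-linear maps on global sections.
* `isIso_of_isIso_moduleSpecΓ_map` : a morphism of quasi-coherent modules on `Spec R` which is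
  bijective on global sections is an isomorphism.
-/

set_option autoImplicit false

universe u

open CategoryTheory AlgebraicGeometry TopologicalSpace Opposite

namespace Fermat.Agent.S25.H986

/-- For an adjunction `L ⊣ R` and an object `N` at which the counit is an isomorphism,
`R.map` is bijective on morphisms out of `N`. -/
theorem map_bijective_of_isIso_counit_app {C D : Type*} [Category C] [Category D]
    {L : C ⥤ D} {R : D ⥤ C} (adj : L ⊣ R) (N N' : D) [IsIso (adj.counit.app N)] :
    Function.Bijective (fun φ : N ⟶ N' => R.map φ) := by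
  have h : (fun φ : N ⟶ N' => R.map φ) =
      (adj.homEquiv (R.obj N) N') ∘ (fun φ : N ⟶ N' => adj.counit.app N ≫ φ) := by
    funext φ
    simp only [Function.comp_apply, Adjunction.homEquiv_unit, Functor.map_comp,
      Adjunction.right_triangle_components_assoc]
  rw [h]
  refine (adj.homEquiv (R.obj N) N').bijective.comp ⟨fun φ φ' hφ => ?_, fun ψ => ?_⟩
  · exact (cancel_epi (adj.counit.app N)).mp hφ
  · exact ⟨inv (adj.counit.app N) ≫ ψ, by simp⟩

noncomputable section

variable {R : CommRingCat.{u}}

/-- For a quasi-coherent module `N` on `Spec R`, morphisms `N ⟶ N'` are the same as `R`-linear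
maps `Γ(N) → Γ(N')`. -/
theorem moduleSpecΓ_map_bijective (N N' : (Spec R).Modules) [N.IsQuasicoherent] :
    Function.Bijective (fun φ : N ⟶ N' => moduleSpecΓFunctor.map φ) := by
  have : IsIso ((tilde.adjunction (R := R)).counit.app N) :=
    inferInstanceAs (IsIso N.fromTildeΓ)
  exact map_bijective_of_isIso_counit_app tilde.adjunction N N'

/-- The map on global sections of a morphism of modules on `Spec R`, as an `R`-linear map. -/
def ΓLinearMap {N N' : (Spec R).Modules} (φ : N ⟶ N') :
    Γ(N, ⊤) →ₗ[R] Γ(N', ⊤) :=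
  (moduleSpecΓFunctor.map φ).hom

@[simp]
theorem ΓLinearMap_apply {N N' : (Spec R).Modules} (φ : N ⟶ N') (s : Γ(N, ⊤)) :
    ΓLinearMap φ s = φ.app ⊤ s := rfl

/-- **AD1 on `Spec R`.** For a quasi-coherent module `N` on `Spec R`, every `R`-linear map on
global sections comes from a unique morphism of modules. -/
theorem existsUnique_hom_of_ΓLinearMap (N N' : (Spec R).Modules) [N.IsQuasicoherent]
    (h : Γ(N, ⊤) →ₗ[R] Γ(N', ⊤)) :
    ∃! φ : N ⟶ N', ∀ s : Γ(N, ⊤), φ.app ⊤ s = h s := by
  let h0 := ModuleCat.ofHom h
  let h' : moduleSpecΓFunctor.obj N ⟶ moduleSpecΓFunctor.obj N' := h0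
  obtain ⟨φ, hφ⟩ := (moduleSpecΓ_map_bijective N N').2 h'
  have hφ' : moduleSpecΓFunctor.map φ = h' := hφ
  refine ⟨φ, fun s => ?_, fun ψ hψ => ?_⟩
  · have := congr($(hφ').hom s)
    exact this
  · apply (moduleSpecΓ_map_bijective N N').1
    change moduleSpecΓFunctor.map ψ = moduleSpecΓFunctor.map φ
    rw [hφ']
    ext s
    exact hψ s

/-- A morphism of modules on `Spec R` out of a quasi-coherent module is determined by its
effect on global sections. -/
theorem hom_ext_of_app_top {N N' : (Spec R).Modules} [N.IsQuasicoherent] (φ ψ : N ⟶ N')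
    (h : ∀ s : Γ(N, ⊤), φ.app ⊤ s = ψ.app ⊤ s) : φ = ψ := by
  apply (moduleSpecΓ_map_bijective N N').1
  change moduleSpecΓFunctor.map φ = moduleSpecΓFunctor.map ψ
  ext s
  exact h s

end

end Fermat.Agent.S25.H986
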