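import Mathlib
import Fermat.Agent.S25.H926.GlueHomCover
import Fermat.Agent.S25.H986.AffineHom

/-!
# S25 / block DICT: morphisms out of a quasi-coherent module, on an affine open

Let `P` be an affine open of a scheme `X`, `f = hP.fromSpec : Spec Γ(X, P) ⟶ X`, and `M`, `M'`
modules on `X` with `M` quasi-coherent.

* `smul_restrict_fromSpec` : the `Γ(X, P)`-module structure on the sections of `M.restrict f`.
* `existsUnique_restrictHom_of_linear` (**AD1**) : an additive map `Γ(M, P) → Γ(M', P)` which is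
  `Γ(X, P)`-linear comes from a unique morphism `M.restrict f ⟶ M'.restrict f`.
-/

set_option autoImplicit false

universe u

open CategoryTheory AlgebraicGeometry TopologicalSpace Opposite

namespace Fermat.Agent.S25.H986

noncomputable section

variable {X : Scheme.{u}} {P : X.Opens} (hP : IsAffineOpen P)

theorem fromSpec_image_le (V : (Spec Γ(X, P)).Opens) : hP.fromSpec ''ᵁ V ≤ P := by
  have h := hP.fromSpec.image_le_opensRange V
  rwa [hP.opensRange_fromSpec] at h

/-- The ring map `Γ(X, P) → Γ(Spec Γ(X, P), V) → Γ(X, fromSpec '' V)` is the restriction. -/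
theorem ΓSpecIso_inv_map_appIso_inv (V : (Spec Γ(X, P)).Opens) (r : Γ(X, P)) :
    (hP.fromSpec.appIso V).inv ((Spec Γ(X, P)).presheaf.map (homOfLE (le_top : V ≤ ⊤)).op
      ((Scheme.ΓSpecIso Γ(X, P)).inv r)) =
    X.presheaf.map (homOfLE (fromSpec_image_le hP V)).op r := by
  have e : V ≤ hP.fromSpec ⁻¹ᵁ P := by rw [hP.fromSpec_preimage_self]; exact le_top
  have h1 := Scheme.Hom.appLE_appIso_inv hP.fromSpec e
  have h2 : hP.fromSpec.appLE P V e =
      (Scheme.ΓSpecIso Γ(X, P)).inv ≫
        (Spec Γ(X, P)).presheaf.map (homOfLE (le_top : V ≤ ⊤)).op := by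
    rw [Scheme.Hom.appLE, hP.fromSpec_app_self, Category.assoc, ← Functor.map_comp]
    rfl
  rw [h2] at h1
  exact congr($h1 r)

open Fermat.Agent.S25.H926 in
/-- The `Γ(X, P)`-module structure on the sections of `M.restrict hP.fromSpec` over `V` is the
restriction of scalars along `Γ(X, P) → Γ(X, fromSpec '' V)` of the module structure of
`Γ(M, fromSpec '' V)`. -/
theorem smul_restrict_fromSpec (M : X.Modules) (V : (Spec Γ(X, P)).Opens) (r : Γ(X, P))
    (s : Γ(M.restrict hP.fromSpec, V)) :
    ofRestr hP.fromSpec M V (r • s) =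
      X.presheaf.map (homOfLE (fromSpec_image_le hP V)).op r • ofRestr hP.fromSpec M V s := by
  rw [Scheme.Modules.smul_Spec_def, ofRestr_smul]
  congr 1
  exact ΓSpecIso_inv_map_appIso_inv hP V r

theorem le_fromSpec_image_top : P ≤ hP.fromSpec ''ᵁ ⊤ := by
  rw [Scheme.Hom.image_top_eq_opensRange, hP.opensRange_fromSpec]

theorem le_opensRange_fromSpec : P ≤ hP.fromSpec.opensRange := by
  rw [hP.opensRange_fromSpec]

/-- Restriction maps compose (functions). -/
theorem presheaf_map_map_fun (X : Scheme.{u}) {U₁ U₂ U₃ : X.Opens} (i : U₁ ⟶ U₂) (j : U₂ ⟶ U₃)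
    (l : U₁ ⟶ U₃) (x : Γ(X, U₃)) :
    X.presheaf.map i.op (X.presheaf.map j.op x) = X.presheaf.map l.op x := by
  rw [← CommRingCat.comp_apply, ← Functor.map_comp, ← op_comp]
  rw [Subsingleton.elim (i ≫ j) l]

theorem presheaf_map_self_fun (X : Scheme.{u}) {U₁ : X.Opens} (i : U₁ ⟶ U₁) (x : Γ(X, U₁)) :
    X.presheaf.map i.op x = x := by
  rw [Subsingleton.elim i (𝟙 _)]
  simp

open Fermat.Agent.S25.H926 in
/-- The `Γ(X, P)`-linear map on global sections of the restrictions to `Spec Γ(X, P)` attached to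
a `Γ(X, P)`-linear map `Γ(M, P) → Γ(M', P)`. -/
def specLinearMap (M M' : X.Modules) (h : Γ(M, P) →+ Γ(M', P))
    (hlin : ∀ (r : Γ(X, P)) (s : Γ(M, P)), h (r • s) = r • h s) :
    Γ(M.restrict hP.fromSpec, ⊤) →ₗ[Γ(X, P)] Γ(M'.restrict hP.fromSpec, ⊤) where
  toFun s := toRestr hP.fromSpec M' ⊤
    (M'.presheaf.map (homOfLE (fromSpec_image_le hP ⊤)).op
      (h (M.presheaf.map (homOfLE (le_fromSpec_image_top hP)).op (ofRestr hP.fromSpec M ⊤ s))))
  map_add' s t := by simp only [map_add]
  map_smul' r s := by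
    apply (show Function.Injective (ofRestr hP.fromSpec M' ⊤) from fun _ _ h => h)
    rw [RingHom.id_apply, smul_restrict_fromSpec, smul_restrict_fromSpec, ofRestr_toRestr,
      ofRestr_toRestr, Scheme.Modules.map_smul, presheaf_map_map_fun X _ _ (𝟙 _),
      presheaf_map_self_fun, hlin, Scheme.Modules.map_smul]

open Fermat.Agent.S25.H926 in
/-- **AD1.** Let `P` be an affine open of `X` and `M` a quasi-coherent module on `X`. A
`Γ(X, P)`-linear map `h : Γ(M, P) → Γ(M', P)` comes from a unique morphism between the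
restrictions of `M` and `M'` to `Spec Γ(X, P)`. -/
theorem existsUnique_restrictHom_of_linear (M M' : X.Modules) [M.IsQuasicoherent]
    (h : Γ(M, P) →+ Γ(M', P))
    (hlin : ∀ (r : Γ(X, P)) (s : Γ(M, P)), h (r • s) = r • h s) :
    ∃! φ : M.restrict hP.fromSpec ⟶ M'.restrict hP.fromSpec,
      ∀ s : Γ(M, P), sectionMap hP.fromSpec φ P (le_opensRange_fromSpec hP) s = h s := by
  have key : ∀ (φ : M.restrict hP.fromSpec ⟶ M'.restrict hP.fromSpec),
      (∀ s : Γ(M, P), sectionMap hP.fromSpec φ P (le_opensRange_fromSpec hP) s = h s) ↔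
      ∀ s : Γ(M.restrict hP.fromSpec, ⊤), φ.app ⊤ s = specLinearMap hP M M' h hlin s := by
    intro φ
    have hnat := fun s => sectionMap_map hP.fromSpec φ (le_opensRange_fromSpec hP)
      (fromSpec_image_le hP ⊤) s
    constructor
    · intro H s
      have h1 := hnat (M.presheaf.map (homOfLE (le_fromSpec_image_top hP)).op
        (ofRestr hP.fromSpec M ⊤ s))
      rw [presheaf_map_map M _ _ (𝟙 _), presheaf_map_self, H, sectionMap_image] at h1
      exact h1
    · intro H s
      have h1 := hnat s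
      rw [sectionMap_image] at h1
      have h2 := H (toRestr hP.fromSpec M ⊤
        (M.presheaf.map (homOfLE (fromSpec_image_le hP ⊤)).op s))
      have h3 : imageMap hP.fromSpec φ ⊤ (M.presheaf.map (homOfLE (fromSpec_image_le hP ⊤)).op s) =
          M'.presheaf.map (homOfLE (fromSpec_image_le hP ⊤)).op
            (h (M.presheaf.map (homOfLE (le_fromSpec_image_top hP)).op
              (M.presheaf.map (homOfLE (fromSpec_image_le hP ⊤)).op s))) := h2
      rw [presheaf_map_map M _ _ (𝟙 _), presheaf_map_self] at h3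
      rw [h3] at h1
      have h4 := congrArg (M'.presheaf.map (homOfLE (le_fromSpec_image_top hP)).op) h1
      rw [presheaf_map_map M' _ _ (𝟙 _), presheaf_map_self, presheaf_map_map M' _ _ (𝟙 _),
        presheaf_map_self] at h4
      exact h4.symm
  haveI : (M.restrict hP.fromSpec).IsQuasicoherent := inferInstance
  obtain ⟨φ, hφ, huniq⟩ := existsUnique_hom_of_ΓLinearMap (M.restrict hP.fromSpec)
    (M'.restrict hP.fromSpec) (specLinearMap hP M M' h hlin)
  exact ⟨φ, (key φ).mpr hφ, fun ψ hψ => huniq ψ ((key ψ).mp hψ)⟩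

end

end Fermat.Agent.S25.H986
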