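import Mathlib
import Fermat.Agent.S25.H926.GlueHomCover
import Fermat.Agent.S25.H986.AffineOpenHom

/-!
# S25 / block DICT: sections of a quasi-coherent module over basic opens of an affine open

* `exists_pow_smul_eq_map` : for `M` quasi-coherent, `P` affine open, `g ∈ Γ(X, P)` and
  `t ∈ Γ(M, D(g))` there are `n` and `m ∈ Γ(M, P)` with `g ^ n • t = m|_{D(g)}`.
* `eq_of_natural_linear_of_eq_on_affine` (**Lemma U**) : two natural, linear families of maps
  `Γ(M, W) → Γ(M', W)` (`W ≤ P`) which agree on `P` agree on every `W ≤ P`.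
-/

set_option autoImplicit false

universe u

open CategoryTheory AlgebraicGeometry TopologicalSpace Opposite

namespace Fermat.Agent.S25.H986

noncomputable section

variable {X : Scheme.{u}} {P : X.Opens}

open Fermat.Agent.S25.H926 in
/-- Surjectivity part of "sections over a basic open are the localization": for a
quasi-coherent module `M`, every section over `D(g) ⊆ P` becomes a restriction of a section over
`P` after multiplication by a power of `g`. -/
theorem exists_pow_smul_eq_map (hP : IsAffineOpen P) (M : X.Modules) [M.IsQuasicoherent]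
    (g : Γ(X, P))
    (t : Γ(M, X.basicOpen g)) :
    ∃ (n : ℕ) (m : Γ(M, P)),
      (X.presheaf.map (homOfLE (X.basicOpen_le g)).op g) ^ n • t =
        M.presheaf.map (homOfLE (X.basicOpen_le g)).op m := by
  have hN : (M.restrict hP.fromSpec).IsQuasicoherent := inferInstance
  have hiso : IsIso (M.restrict hP.fromSpec).fromTildeΓ := inferInstance
  have hloc := (isIso_fromTildeΓ_iff_isLocalizing (M.restrict hP.fromSpec)).mp hiso g
  obtain ⟨D, hD⟩ : ∃ D : (Spec Γ(X, P)).Opens, D = PrimeSpectrum.basicOpen g := ⟨_, rfl⟩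
  have himg : hP.fromSpec ''ᵁ D = X.basicOpen g := by
    rw [hD]; exact hP.fromSpec_image_basicOpen g
  -- transport `t` to a section of the restriction over `basicOpen g`
  let t' : Γ(M.restrict hP.fromSpec, D) :=
    toRestr hP.fromSpec M _ (M.presheaf.map (homOfLE himg.le).op t)
  have hsurj : ∃ (n : ℕ) (m' : Γ(M.restrict hP.fromSpec, ⊤)),
      (g ^ n) • t' = (M.restrict hP.fromSpec).presheaf.map (homOfLE (le_top : D ≤ ⊤)).op m' := by
    subst hD
    obtain ⟨⟨m', ⟨_, n, rfl⟩⟩, hm'⟩ := hloc.surj t'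
    exact ⟨n, m', hm'⟩
  obtain ⟨n, m', hm'⟩ := hsurj
  refine ⟨n, M.presheaf.map (homOfLE (le_fromSpec_image_top hP)).op (ofRestr hP.fromSpec M ⊤ m'),
    ?_⟩
  -- read the identity `g ^ n • t' = res m'` in `Γ(M, fromSpec '' D(g))`
  have h1 : ofRestr hP.fromSpec M _ ((g ^ n) • t') =
      M.presheaf.map (homOfLE (hP.fromSpec.image_mono (le_top : D ≤ ⊤))).op
        (ofRestr hP.fromSpec M ⊤ m') := by
    have := congrArg (ofRestr hP.fromSpec M D) hm'
    exact this
  rw [smul_restrict_fromSpec, ofRestr_toRestr] at h1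
  -- transport along `fromSpec '' D(g) = X.basicOpen g`
  have h2 := congrArg (M.presheaf.map (homOfLE himg.ge).op) h1
  rw [Scheme.Modules.map_smul, presheaf_map_map M _ _ (𝟙 _), presheaf_map_self,
    presheaf_map_map_fun X _ _ (homOfLE (X.basicOpen_le g)), map_pow,
    presheaf_map_map M _ _ (homOfLE ((X.basicOpen_le g).trans (le_fromSpec_image_top hP)))] at h2
  rw [h2, presheaf_map_map M _ _ (homOfLE ((X.basicOpen_le g).trans (le_fromSpec_image_top hP)))]

open Fermat.Agent.S25.H926 in
/-- **Lemma U.** Let `P` be an affine open of `X` and `M` a quasi-coherent module. Two families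
of additive maps `Γ(M, W) → Γ(M', W)`, `W ≤ P`, which are natural in `W` and linear, and which
agree on `P`, agree on every `W ≤ P`. -/
theorem eq_of_natural_linear_of_eq_on_affine (hP : IsAffineOpen P) (M M' : X.Modules)
    [M.IsQuasicoherent]
    (a b : ∀ W : X.Opens, W ≤ P → (Γ(M, W) →+ Γ(M', W)))
    (a_nat : ∀ (W W' : X.Opens) (hW : W ≤ P) (h : W' ≤ W) (s : Γ(M, W)),
      a W' (h.trans hW) (M.presheaf.map (homOfLE h).op s) =
        M'.presheaf.map (homOfLE h).op (a W hW s))
    (a_lin : ∀ (W : X.Opens) (hW : W ≤ P) (r : Γ(X, W)) (s : Γ(M, W)),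
      a W hW (r • s) = r • a W hW s)
    (b_nat : ∀ (W W' : X.Opens) (hW : W ≤ P) (h : W' ≤ W) (s : Γ(M, W)),
      b W' (h.trans hW) (M.presheaf.map (homOfLE h).op s) =
        M'.presheaf.map (homOfLE h).op (b W hW s))
    (b_lin : ∀ (W : X.Opens) (hW : W ≤ P) (r : Γ(X, W)) (s : Γ(M, W)),
      b W hW (r • s) = r • b W hW s)
    (hab : ∀ s : Γ(M, P), a P le_rfl s = b P le_rfl s)
    (W : X.Opens) (hW : W ≤ P) (s : Γ(M, W)) : a W hW s = b W hW s := by
  -- Step 1: basic opens
  have step1 : ∀ (g : Γ(X, P)) (t : Γ(M, X.basicOpen g)),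
      a (X.basicOpen g) (X.basicOpen_le g) t = b (X.basicOpen g) (X.basicOpen_le g) t := by
    intro g t
    obtain ⟨n, m, hm⟩ := exists_pow_smul_eq_map hP M g t
    have hu : IsUnit ((X.presheaf.map (homOfLE (X.basicOpen_le g)).op g) ^ n) :=
      (RingedSpace.isUnit_res_basicOpen X.toRingedSpace g).pow n
    have h1 : (X.presheaf.map (homOfLE (X.basicOpen_le g)).op g) ^ n •
        a (X.basicOpen g) (X.basicOpen_le g) t =
        (X.presheaf.map (homOfLE (X.basicOpen_le g)).op g) ^ n •
        b (X.basicOpen g) (X.basicOpen_le g) t := by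
      rw [← a_lin, ← b_lin, hm, a_nat P _ le_rfl, b_nat P _ le_rfl, hab]
    exact hu.smul_left_cancel.mp h1
  -- Step 2: locality
  refine TopCat.Sheaf.eq_of_locally_eq' ⟨M'.presheaf, M'.isSheaf⟩
    (fun g : {g : Γ(X, P) // X.basicOpen g ≤ W} => X.basicOpen g.1) W
    (fun g => homOfLE g.2) ?_ _ _ (fun g => ?_)
  · intro x hx
    obtain ⟨g, hgW, hxg⟩ := hP.exists_basicOpen_le ⟨x, hx⟩ (hW hx)
    exact Opens.mem_iSup.mpr ⟨⟨g, hgW⟩, hxg⟩
  · change M'.presheaf.map (homOfLE g.2).op (a W hW s) = M'.presheaf.map (homOfLE g.2).op (b W hW s)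
    rw [← a_nat W _ hW g.2, ← b_nat W _ hW g.2]
    exact step1 g.1 _

end

end Fermat.Agent.S25.H986
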