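import Mathlib
import Fermat.Agent.S25.H926.GlueHomCover
import Fermat.Agent.S25.H986.AffineLocalization

/-!
# S25 / block DICT: morphisms of quasi-coherent modules from sections on two affine charts

`existsUnique_hom_of_two_affine` (**QC2**): let `X = P₀ ∪ P₁` with `P₀`, `P₁` affine opens whose
intersection is a basic open of both. For `M` quasi-coherent, linear maps on sections over
`P₀`, `P₁`, `P₀ ⊓ P₁` compatible with the two restriction maps come from a unique morphism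
`M ⟶ M'`.
-/

set_option autoImplicit false

universe u

open CategoryTheory AlgebraicGeometry TopologicalSpace Opposite

namespace Fermat.Agent.S25.H986

noncomputable section

variable {X : Scheme.{u}}

/-- **Lemma E.** Let `P` be an affine open, `g ∈ Γ(X, P)`, `D = D(g)`, `M` quasi-coherent. Two
`Γ(X, D)`-linear maps on `Γ(M, D)` which agree on restrictions of sections over `P` are equal. -/
theorem eq_of_eq_on_restrictions {P : X.Opens} (hP : IsAffineOpen P) (M M' : X.Modules)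
    [M.IsQuasicoherent] (g : Γ(X, P)) {D : X.Opens} (hD : X.basicOpen g = D) (hDP : D ≤ P)
    (α β : Γ(M, D) →+ Γ(M', D))
    (α_lin : ∀ (r : Γ(X, D)) (s : Γ(M, D)), α (r • s) = r • α s)
    (β_lin : ∀ (r : Γ(X, D)) (s : Γ(M, D)), β (r • s) = r • β s)
    (h : ∀ m : Γ(M, P), α (M.presheaf.map (homOfLE hDP).op m) =
      β (M.presheaf.map (homOfLE hDP).op m))
    (s : Γ(M, D)) : α s = β s := by
  subst hD
  obtain ⟨n, m, hm⟩ := exists_pow_smul_eq_map hP M g s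
  have hu : IsUnit ((X.presheaf.map (homOfLE (X.basicOpen_le g)).op g) ^ n) :=
    (RingedSpace.isUnit_res_basicOpen X.toRingedSpace g).pow n
  have h1 : (X.presheaf.map (homOfLE (X.basicOpen_le g)).op g) ^ n • α s =
      (X.presheaf.map (homOfLE (X.basicOpen_le g)).op g) ^ n • β s := by
    rw [← α_lin, ← β_lin, hm]
    exact h m
  exact hu.smul_left_cancel.mp h1

open Fermat.Agent.S25.H926 in
/-- **QC2.** Let `X = P₀ ∪ P₁` with `P₀`, `P₁` affine opens and `P₀₁ = P₀ ⊓ P₁` a basic open of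
both. For `M` quasi-coherent, linear maps `h₀`, `h₁`, `h₀₁` on sections over `P₀`, `P₁`, `P₀₁`
compatible with the two restriction maps come from a unique morphism `M ⟶ M'`. -/
theorem existsUnique_hom_of_two_affine (M M' : X.Modules) [M.IsQuasicoherent]
    {P₀ P₁ P₀₁ : X.Opens} (hP₀ : IsAffineOpen P₀) (hP₁ : IsAffineOpen P₁)
    (hcov : P₀ ⊔ P₁ = ⊤) (h₀₁₀ : P₀₁ ≤ P₀) (h₀₁₁ : P₀₁ ≤ P₁) (hinf : P₀ ⊓ P₁ ≤ P₀₁)
    (g₀ : Γ(X, P₀)) (hg₀ : X.basicOpen g₀ = P₀₁) (g₁ : Γ(X, P₁)) (hg₁ : X.basicOpen g₁ = P₀₁)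
    (h₀ : Γ(M, P₀) →+ Γ(M', P₀)) (h₁ : Γ(M, P₁) →+ Γ(M', P₁))
    (h₀₁ : Γ(M, P₀₁) →+ Γ(M', P₀₁))
    (lin₀ : ∀ (r : Γ(X, P₀)) (s : Γ(M, P₀)), h₀ (r • s) = r • h₀ s)
    (lin₁ : ∀ (r : Γ(X, P₁)) (s : Γ(M, P₁)), h₁ (r • s) = r • h₁ s)
    (lin₀₁ : ∀ (r : Γ(X, P₀₁)) (s : Γ(M, P₀₁)), h₀₁ (r • s) = r • h₀₁ s)
    (res₀ : ∀ s : Γ(M, P₀), h₀₁ (M.presheaf.map (homOfLE h₀₁₀).op s) =
      M'.presheaf.map (homOfLE h₀₁₀).op (h₀ s))
    (res₁ : ∀ s : Γ(M, P₁), h₀₁ (M.presheaf.map (homOfLE h₀₁₁).op s) =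
      M'.presheaf.map (homOfLE h₀₁₁).op (h₁ s)) :
    ∃! φ : M ⟶ M', (∀ s : Γ(M, P₀), φ.app P₀ s = h₀ s) ∧ (∀ s : Γ(M, P₁), φ.app P₁ s = h₁ s) := by
  classical
  obtain ⟨φ₀, hφ₀, uniq₀⟩ := existsUnique_restrictHom_of_linear hP₀ M M' h₀ lin₀
  obtain ⟨φ₁, hφ₁, uniq₁⟩ := existsUnique_restrictHom_of_linear hP₁ M M' h₁ lin₁
  have r₀ : P₀ ≤ hP₀.fromSpec.opensRange := le_opensRange_fromSpec hP₀
  have r₁ : P₁ ≤ hP₁.fromSpec.opensRange := le_opensRange_fromSpec hP₁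
  -- values on `P₀₁`
  have a01 : ∀ s : Γ(M, P₀₁), sectionMap hP₀.fromSpec φ₀ P₀₁ (h₀₁₀.trans r₀) s = h₀₁ s :=
    eq_of_eq_on_restrictions hP₀ M M' g₀ hg₀ h₀₁₀ (sectionMap hP₀.fromSpec φ₀ P₀₁ (h₀₁₀.trans r₀))
      h₀₁ (sectionMap_smul hP₀.fromSpec φ₀ P₀₁ (h₀₁₀.trans r₀)) lin₀₁
      (fun m => by rw [sectionMap_map hP₀.fromSpec φ₀ r₀ h₀₁₀ m, hφ₀, res₀])
  have b01 : ∀ s : Γ(M, P₀₁), sectionMap hP₁.fromSpec φ₁ P₀₁ (h₀₁₁.trans r₁) s = h₀₁ s :=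
    eq_of_eq_on_restrictions hP₁ M M' g₁ hg₁ h₀₁₁ (sectionMap hP₁.fromSpec φ₁ P₀₁ (h₀₁₁.trans r₁))
      h₀₁ (sectionMap_smul hP₁.fromSpec φ₁ P₀₁ (h₀₁₁.trans r₁)) lin₀₁
      (fun m => by rw [sectionMap_map hP₁.fromSpec φ₁ r₁ h₀₁₁ m, hφ₁, res₁])
  -- agreement on the overlap
  have hP₀₁ : IsAffineOpen P₀₁ := hg₀ ▸ hP₀.basicOpen g₀
  have overlap : ∀ (W : X.Opens) (hW : W ≤ P₀₁) (s : Γ(M, W)),
      sectionMap hP₀.fromSpec φ₀ W ((hW.trans h₀₁₀).trans r₀) s =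
        sectionMap hP₁.fromSpec φ₁ W ((hW.trans h₀₁₁).trans r₁) s :=
    eq_of_natural_linear_of_eq_on_affine hP₀₁ M M'
      (fun W hW => sectionMap hP₀.fromSpec φ₀ W ((hW.trans h₀₁₀).trans r₀))
      (fun W hW => sectionMap hP₁.fromSpec φ₁ W ((hW.trans h₀₁₁).trans r₁))
      (fun W W' hW h s => sectionMap_map hP₀.fromSpec φ₀ ((hW.trans h₀₁₀).trans r₀) h s)
      (fun W hW r s => sectionMap_smul hP₀.fromSpec φ₀ W ((hW.trans h₀₁₀).trans r₀) r s)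
      (fun W W' hW h s => sectionMap_map hP₁.fromSpec φ₁ ((hW.trans h₀₁₁).trans r₁) h s)
      (fun W hW r s => sectionMap_smul hP₁.fromSpec φ₁ W ((hW.trans h₀₁₁).trans r₁) r s)
      (fun s => (a01 s).trans (b01 s).symm)
  -- the down-basis of opens contained in `P₀` or in `P₁`
  let B : Set X.Opens := {W | W ≤ P₀ ∨ W ≤ P₁}
  have hB : IsDownBasis B :=
    { down := fun {W W'} hW h => hW.elim (fun h0 => Or.inl (h.trans h0))
        (fun h1 => Or.inr (h.trans h1))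
      cover := fun V x hx => by
        have hx' : x ∈ P₀ ⊔ P₁ := by rw [hcov]; trivial
        rcases hx' with h0 | h1
        · exact Opens.mem_iSup.mpr ⟨⟨V ⊓ P₀, Or.inl inf_le_right, inf_le_left⟩, hx, h0⟩
        · exact Opens.mem_iSup.mpr ⟨⟨V ⊓ P₁, Or.inr inf_le_right, inf_le_left⟩, hx, h1⟩ }
  let a : ∀ W : X.Opens, W ∈ B → (Γ(M, W) →+ Γ(M', W)) := fun W hW =>
    if h : W ≤ P₀ then sectionMap hP₀.fromSpec φ₀ W (h.trans r₀)
    else sectionMap hP₁.fromSpec φ₁ W ((hW.resolve_left h).trans r₁)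
  have a_of_le₀ : ∀ (W : X.Opens) (hW : W ∈ B) (h : W ≤ P₀),
      a W hW = sectionMap hP₀.fromSpec φ₀ W (h.trans r₀) := fun W hW h => dif_pos h
  have a_of_le₁ : ∀ (W : X.Opens) (hW : W ∈ B) (h : W ≤ P₁),
      a W hW = sectionMap hP₁.fromSpec φ₁ W (h.trans r₁) := by
    intro W hW h
    by_cases h0 : W ≤ P₀
    · rw [a_of_le₀ W hW h0]
      ext s
      exact overlap W ((le_inf h0 h).trans hinf) s
    · exact dif_neg h0
  let D : BasisHomData B M M' :=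
    { a := a
      nat := fun W W' hW hW' h s => by
        rcases hW with h0 | h1
        · rw [a_of_le₀ W (Or.inl h0) h0, a_of_le₀ W' hW' (h.trans h0)]
          exact sectionMap_map hP₀.fromSpec φ₀ (h0.trans r₀) h s
        · rw [a_of_le₁ W (Or.inr h1) h1, a_of_le₁ W' hW' (h.trans h1)]
          exact sectionMap_map hP₁.fromSpec φ₁ (h1.trans r₁) h s
      lin := fun W hW r s => by
        rcases hW with h0 | h1
        · rw [a_of_le₀ W (Or.inl h0) h0]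
          exact sectionMap_smul hP₀.fromSpec φ₀ W (h0.trans r₀) r s
        · rw [a_of_le₁ W (Or.inr h1) h1]
          exact sectionMap_smul hP₁.fromSpec φ₁ W (h1.trans r₁) r s }
  obtain ⟨φ, hφ, huniq⟩ := existsUnique_hom_of_basisHomData hB D
  have hφ' : ∀ (W : X.Opens) (hW : W ∈ B) (s : Γ(M, W)), φ.app W s = a W hW s := hφ
  have hB₀ : P₀ ∈ B := Or.inl le_rfl
  have hB₁ : P₁ ∈ B := Or.inr le_rfl
  refine ⟨φ, ⟨fun s => ?_, fun s => ?_⟩, fun ψ hψ => ?_⟩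
  · rw [hφ' P₀ hB₀ s, a_of_le₀ P₀ hB₀ le_rfl, hφ₀]
  · rw [hφ' P₁ hB₁ s, a_of_le₁ P₁ hB₁ le_rfl, hφ₁]
  · have e₀ : (Scheme.Modules.restrictFunctor hP₀.fromSpec).map ψ = φ₀ :=
      uniq₀ _ (fun s => by rw [sectionMap_restrictFunctor_map]; exact hψ.1 s)
    have e₁ : (Scheme.Modules.restrictFunctor hP₁.fromSpec).map ψ = φ₁ :=
      uniq₁ _ (fun s => by rw [sectionMap_restrictFunctor_map]; exact hψ.2 s)
    apply huniq
    intro W hW s
    change ψ.app W s = a W hW s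
    rcases hW with h0 | h1
    · rw [a_of_le₀ W (Or.inl h0) h0, ← e₀, sectionMap_restrictFunctor_map]
    · rw [a_of_le₁ W (Or.inr h1) h1, ← e₁, sectionMap_restrictFunctor_map]

end

end Fermat.Agent.S25.H986
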