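import Mathlib
import Fermat.Agent.S25.DefsDict
import Fermat.Agent.S25.H205.Box
import Fermat.Agent.S25.H986.InvertibleQCoh
import Fermat.Agent.S25.H986.DictIsoMp
import Fermat.Agent.S25.H986.PushoutGen
import Fermat.Agent.S25.H986.TwoAffineHom

/-!
# S25 / block DICT: `Stmt.DictIso`

Direction `G.IsIso G' → RIso M M'` and the full statement `dictIso : Stmt.DictIso Ch`.

A morphism of gluing data `(f₀, f₁, f₀₁) : G → G'` gives, through the identifications of `Corr`,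
additive maps on sections over the preimages `P₀`, `P₁`, `P₀₁` of `U₀`, `U₁`, `U₀ ⊓ U₁`.  They
are linear over the rings of functions (generated by `A` and `Γ(C, U)`, `map_smul_of_generators`)
and compatible with restrictions, so they come from a unique morphism of quasi-coherent modules
(`existsUnique_hom_of_two_affine`).

* `existsUnique_hom_of_glueHom` : the morphism of modules attached to a morphism of gluing data.
* `iso_of_glueDatum_iso` : isomorphic gluing data come from isomorphic modules.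
* `dictIso` : `Stmt.DictIso Ch`.
-/

set_option autoImplicit false
universe u
open CategoryTheory CategoryTheory.Limits AlgebraicGeometry AlgebraicGeometry.RelPicard
  NeronModelInfra GoodReductionJacobian
open scoped TensorProduct

namespace Fermat.Agent.S25.H986

open Fermat.Agent.S25

noncomputable section

variable {k : Type u} [Field k] {C : Scheme.{u}} {c : C ⟶ Spec (CommRingCat.of k)}
  {A : Type u} [CommRing A] [Algebra k A]

/-- The additive map on sections over the preimage of `U` obtained by transporting a linear map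
`g : N → N'` along two identifications of sections. -/
def transportHom {L L' : (pullback c (specStr k A)).Modules} (U : C.Opens)
    {B : Type u} [CommRing B] [Algebra k B]
    {N N' : Type u} [AddCommGroup N] [Module (A ⊗[k] B) N] [AddCommGroup N']
    [Module (A ⊗[k] B) N']
    (e : Γ(L, preimageOpen (c := c) A U) ≃+ N) (e' : Γ(L', preimageOpen (c := c) A U) ≃+ N')
    (g : N →ₗ[A ⊗[k] B] N') :
    Γ(L, preimageOpen (c := c) A U) →+ Γ(L', preimageOpen (c := c) A U) :=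
  (e'.symm.toAddMonoidHom.comp g.toAddMonoidHom).comp e.toAddMonoidHom

theorem transportHom_apply {L L' : (pullback c (specStr k A)).Modules} (U : C.Opens)
    {B : Type u} [CommRing B] [Algebra k B]
    {N N' : Type u} [AddCommGroup N] [Module (A ⊗[k] B) N] [AddCommGroup N']
    [Module (A ⊗[k] B) N']
    (e : Γ(L, preimageOpen (c := c) A U) ≃+ N) (e' : Γ(L', preimageOpen (c := c) A U) ≃+ N')
    (g : N →ₗ[A ⊗[k] B] N') (s : Γ(L, preimageOpen (c := c) A U)) :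
    transportHom U e e' g s = e'.symm (g (e s)) := rfl

theorem apply_transportHom {L L' : (pullback c (specStr k A)).Modules} (U : C.Opens)
    {B : Type u} [CommRing B] [Algebra k B]
    {N N' : Type u} [AddCommGroup N] [Module (A ⊗[k] B) N] [AddCommGroup N']
    [Module (A ⊗[k] B) N']
    (e : Γ(L, preimageOpen (c := c) A U) ≃+ N) (e' : Γ(L', preimageOpen (c := c) A U) ≃+ N')
    (g : N →ₗ[A ⊗[k] B] N') (s : Γ(L, preimageOpen (c := c) A U)) :
    e' (transportHom U e e' g s) = g (e s) := by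
  rw [transportHom_apply, AddEquiv.apply_symm_apply]

/-- The transported map is linear over the ring of functions on the preimage of `U`. -/
theorem transportHom_smul {L L' : (pullback c (specStr k A)).Modules} {U : C.Opens}
    (hU : IsAffineOpen U) {B : Type u} [CommRing B] [Algebra k B] (i : Γ(C, U) ≃+* B)
    {N N' : Type u} [AddCommGroup N] [Module (A ⊗[k] B) N] [AddCommGroup N']
    [Module (A ⊗[k] B) N']
    (e : Γ(L, preimageOpen (c := c) A U) ≃+ N) (e' : Γ(L', preimageOpen (c := c) A U) ≃+ N')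
    (he : IsSectionsIso A L U i e) (he' : IsSectionsIso A L' U i e')
    (g : N →ₗ[A ⊗[k] B] N')
    (r : Γ(pullback c (specStr k A), preimageOpen (c := c) A U))
    (s : Γ(L, preimageOpen (c := c) A U)) :
    transportHom U e e' g (r • s) = r • transportHom U e e' g s := by
  refine map_smul_of_generators c A hU (transportHom U e e' g) (fun a s => ?_) (fun f s => ?_) r s
  · apply e'.injective
    rw [apply_transportHom, he'.1, apply_transportHom, he.1, map_smul]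
  · apply e'.injective
    rw [apply_transportHom, he'.2, apply_transportHom, he.2, map_smul]

variable {ε : SchemeHomOver (𝟙 (Spec (CommRingCat.of k))) c}

/-- The preimages of the two charts cover `C_A`. -/
theorem preimageOpen_cover (Ch : ChartOf c ε) :
    preimageOpen (c := c) A Ch.U₀ ⊔ preimageOpen (c := c) A Ch.U₁ = ⊤ := by
  rw [← Scheme.Hom.preimage_sup, Ch.cover, Scheme.Hom.preimage_top]

/-- The preimage of `U₀ ⊓ U₁` is the basic open of the pullback of `x`. -/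
theorem basicOpen_curveToSections₀ (Ch : ChartOf c ε) :
    (pullback c (specStr k A)).basicOpen (curveToSections (c := c) A Ch.U₀ (Ch.i₀.symm Ch.x)) =
      preimageOpen (c := c) A (Ch.U₀ ⊓ Ch.U₁) := by
  rw [Ch.inf_eq₀]
  exact (Scheme.preimage_basicOpen (pullback.fst c (specStr k A)) (Ch.i₀.symm Ch.x)).symm

/-- The preimage of `U₀ ⊓ U₁` is the basic open of the pullback of `y`. -/
theorem basicOpen_curveToSections₁ (Ch : ChartOf c ε) :
    (pullback c (specStr k A)).basicOpen (curveToSections (c := c) A Ch.U₁ (Ch.i₁.symm Ch.y)) =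
      preimageOpen (c := c) A (Ch.U₀ ⊓ Ch.U₁) := by
  rw [Ch.inf_eq₁]
  exact (Scheme.preimage_basicOpen (pullback.fst c (specStr k A)) (Ch.i₁.symm Ch.y)).symm

/-- **The morphism of modules attached to a morphism of gluing data.** -/
theorem existsUnique_hom_of_glueHom (Ch : ChartOf c ε)
    {L L' : (pullback c (specStr k A)).Modules} [L.IsQuasicoherent]
    (G G' : CurveGD k Ch.B₀ Ch.B₁ Ch.B₀₁ A)
    (e₀ : Γ(L, preimageOpen (c := c) A Ch.U₀) ≃+ G.N₀)
    (e₁ : Γ(L, preimageOpen (c := c) A Ch.U₁) ≃+ G.N₁)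
    (e₀₁ : Γ(L, preimageOpen (c := c) A (Ch.U₀ ⊓ Ch.U₁)) ≃+ G.N₀₁)
    (h₀ : IsSectionsIso A L Ch.U₀ Ch.i₀ e₀) (h₁ : IsSectionsIso A L Ch.U₁ Ch.i₁ e₁)
    (h₀₁ : IsSectionsIso A L (Ch.U₀ ⊓ Ch.U₁) Ch.i₀₁ e₀₁)
    (hr₀ : ∀ s, e₀₁ (resMod L (show preimageOpen (c := c) A (Ch.U₀ ⊓ Ch.U₁) ≤
          preimageOpen (c := c) A Ch.U₀ from
            (Scheme.Hom.preimage_mono _ inf_le_left)) s) = G.r₀ (e₀ s))
    (hr₁ : ∀ s, e₀₁ (resMod L (show preimageOpen (c := c) A (Ch.U₀ ⊓ Ch.U₁) ≤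
          preimageOpen (c := c) A Ch.U₁ from
            (Scheme.Hom.preimage_mono _ inf_le_right)) s) = G.r₁ (e₁ s))
    (e₀' : Γ(L', preimageOpen (c := c) A Ch.U₀) ≃+ G'.N₀)
    (e₁' : Γ(L', preimageOpen (c := c) A Ch.U₁) ≃+ G'.N₁)
    (e₀₁' : Γ(L', preimageOpen (c := c) A (Ch.U₀ ⊓ Ch.U₁)) ≃+ G'.N₀₁)
    (h₀' : IsSectionsIso A L' Ch.U₀ Ch.i₀ e₀') (h₁' : IsSectionsIso A L' Ch.U₁ Ch.i₁ e₁')
    (h₀₁' : IsSectionsIso A L' (Ch.U₀ ⊓ Ch.U₁) Ch.i₀₁ e₀₁')
    (hr₀' : ∀ s, e₀₁' (resMod L' (show preimageOpen (c := c) A (Ch.U₀ ⊓ Ch.U₁) ≤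
          preimageOpen (c := c) A Ch.U₀ from
            (Scheme.Hom.preimage_mono _ inf_le_left)) s) = G'.r₀ (e₀' s))
    (hr₁' : ∀ s, e₀₁' (resMod L' (show preimageOpen (c := c) A (Ch.U₀ ⊓ Ch.U₁) ≤
          preimageOpen (c := c) A Ch.U₁ from
            (Scheme.Hom.preimage_mono _ inf_le_right)) s) = G'.r₁ (e₁' s))
    (f₀ : G.N₀ →ₗ[A ⊗[k] Ch.B₀] G'.N₀) (f₁ : G.N₁ →ₗ[A ⊗[k] Ch.B₁] G'.N₁)
    (f₀₁ : G.N₀₁ →ₗ[A ⊗[k] Ch.B₀₁] G'.N₀₁)
    (comm₀ : ∀ s, f₀₁ (G.r₀ s) = G'.r₀ (f₀ s)) (comm₁ : ∀ s, f₀₁ (G.r₁ s) = G'.r₁ (f₁ s)) :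
    ∃! φ : L ⟶ L', (∀ s, e₀' (φ.app _ s) = f₀ (e₀ s)) ∧ (∀ s, e₁' (φ.app _ s) = f₁ (e₁ s)) := by
  have hP₀ : IsAffineOpen (preimageOpen (c := c) A Ch.U₀) :=
    Fermat.Agent.S25.H205.isAffineOpen_fst_preimage c (specStr k A) Ch.isAffine₀
  have hP₁ : IsAffineOpen (preimageOpen (c := c) A Ch.U₁) :=
    Fermat.Agent.S25.H205.isAffineOpen_fst_preimage c (specStr k A) Ch.isAffine₁
  have hU₀₁ : IsAffineOpen (Ch.U₀ ⊓ Ch.U₁) := Ch.inf_eq₀ ▸ Ch.isAffine₀.basicOpen _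
  have l₀ : preimageOpen (c := c) A (Ch.U₀ ⊓ Ch.U₁) ≤ preimageOpen (c := c) A Ch.U₀ :=
    Scheme.Hom.preimage_mono _ inf_le_left
  have l₁ : preimageOpen (c := c) A (Ch.U₀ ⊓ Ch.U₁) ≤ preimageOpen (c := c) A Ch.U₁ :=
    Scheme.Hom.preimage_mono _ inf_le_right
  have hinf : preimageOpen (c := c) A Ch.U₀ ⊓ preimageOpen (c := c) A Ch.U₁ ≤
      preimageOpen (c := c) A (Ch.U₀ ⊓ Ch.U₁) := by
    rw [← Scheme.Hom.preimage_inf]
  obtain ⟨φ, hφ, huniq⟩ := existsUnique_hom_of_two_affine L L' hP₀ hP₁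
    (preimageOpen_cover (A := A) Ch) l₀ l₁ hinf
    (curveToSections (c := c) A Ch.U₀ (Ch.i₀.symm Ch.x)) (basicOpen_curveToSections₀ Ch)
    (curveToSections (c := c) A Ch.U₁ (Ch.i₁.symm Ch.y)) (basicOpen_curveToSections₁ Ch)
    (transportHom Ch.U₀ e₀ e₀' f₀) (transportHom Ch.U₁ e₁ e₁' f₁)
    (transportHom (Ch.U₀ ⊓ Ch.U₁) e₀₁ e₀₁' f₀₁)
    (transportHom_smul Ch.isAffine₀ Ch.i₀ e₀ e₀' h₀ h₀' f₀)
    (transportHom_smul Ch.isAffine₁ Ch.i₁ e₁ e₁' h₁ h₁' f₁)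
    (transportHom_smul hU₀₁ Ch.i₀₁ e₀₁ e₀₁' h₀₁ h₀₁' f₀₁)
    (fun s => by
      apply e₀₁'.injective
      rw [apply_transportHom]
      exact ((congrArg f₀₁ (hr₀ s)).trans (comm₀ _)).trans
        (((hr₀' _).trans (congrArg G'.r₀ (apply_transportHom _ _ _ _ _))).symm))
    (fun s => by
      apply e₀₁'.injective
      rw [apply_transportHom]
      exact ((congrArg f₀₁ (hr₁ s)).trans (comm₁ _)).trans
        (((hr₁' _).trans (congrArg G'.r₁ (apply_transportHom _ _ _ _ _))).symm))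
  refine ⟨φ, ⟨fun s => ?_, fun s => ?_⟩, fun ψ hψ => huniq ψ ⟨fun s => ?_, fun s => ?_⟩⟩
  · rw [hφ.1, apply_transportHom]
  · rw [hφ.2, apply_transportHom]
  · apply e₀'.injective
    rw [hψ.1, apply_transportHom]
  · apply e₁'.injective
    rw [hψ.2, apply_transportHom]

/-- **DictIso, direction `←`**: modules with isomorphic gluing data are isomorphic. -/
theorem iso_of_glueDatum_iso (Ch : ChartOf c ε)
    {L L' : (pullback c (specStr k A)).Modules} [L.IsQuasicoherent] [L'.IsQuasicoherent]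
    (G G' : CurveGD k Ch.B₀ Ch.B₁ Ch.B₀₁ A) (hG : Corr Ch A L G) (hG' : Corr Ch A L' G')
    (I : GlueDatum.Iso G G') : Nonempty (L ≅ L') := by
  obtain ⟨e₀, e₁, e₀₁, h₀, h₁, h₀₁, hr₀, hr₁⟩ := hG
  obtain ⟨e₀', e₁', e₀₁', h₀', h₁', h₀₁', hr₀', hr₁'⟩ := hG'
  obtain ⟨φ, hφ, -⟩ := existsUnique_hom_of_glueHom Ch G G' e₀ e₁ e₀₁ h₀ h₁ h₀₁ hr₀ hr₁
    e₀' e₁' e₀₁' h₀' h₁' h₀₁' hr₀' hr₁' I.e₀.toLinearMap I.e₁.toLinearMap I.e₀₁.toLinearMap
    I.comm₀ I.comm₁
  obtain ⟨ψ, hψ, -⟩ := existsUnique_hom_of_glueHom Ch G' G e₀' e₁' e₀₁' h₀' h₁' h₀₁' hr₀' hr₁'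
    e₀ e₁ e₀₁ h₀ h₁ h₀₁ hr₀ hr₁ I.e₀.symm.toLinearMap I.e₁.symm.toLinearMap
    I.e₀₁.symm.toLinearMap
    (fun s => by
      apply I.e₀₁.injective
      have h := I.comm₀ (I.e₀.symm s)
      rw [LinearEquiv.apply_symm_apply] at h
      change I.e₀₁ (I.e₀₁.symm (G'.r₀ s)) = I.e₀₁ (G.r₀ (I.e₀.symm s))
      rw [LinearEquiv.apply_symm_apply, h])
    (fun s => by
      apply I.e₀₁.injective
      have h := I.comm₁ (I.e₁.symm s)
      rw [LinearEquiv.apply_symm_apply] at h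
      change I.e₀₁ (I.e₀₁.symm (G'.r₁ s)) = I.e₀₁ (G.r₁ (I.e₁.symm s))
      rw [LinearEquiv.apply_symm_apply, h])
  obtain ⟨χ, -, uL⟩ := existsUnique_hom_of_glueHom Ch G G e₀ e₁ e₀₁ h₀ h₁ h₀₁ hr₀ hr₁
    e₀ e₁ e₀₁ h₀ h₁ h₀₁ hr₀ hr₁ LinearMap.id LinearMap.id LinearMap.id
    (fun _ => rfl) (fun _ => rfl)
  obtain ⟨χ', -, uL'⟩ := existsUnique_hom_of_glueHom Ch G' G' e₀' e₁' e₀₁' h₀' h₁' h₀₁' hr₀' hr₁'
    e₀' e₁' e₀₁' h₀' h₁' h₀₁' hr₀' hr₁' LinearMap.id LinearMap.id LinearMap.id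
    (fun _ => rfl) (fun _ => rfl)
  have comp_app_apply : ∀ {M₁ M₂ M₃ : (pullback c (specStr k A)).Modules} (α : M₁ ⟶ M₂)
      (β : M₂ ⟶ M₃) (U : (pullback c (specStr k A)).Opens) (s : Γ(M₁, U)),
      (α ≫ β).app U s = β.app U (α.app U s) := by
    intro M₁ M₂ M₃ α β U s
    rw [Scheme.Modules.Hom.comp_app]
    rfl
  have id_app_apply : ∀ (M₁ : (pullback c (specStr k A)).Modules)
      (U : (pullback c (specStr k A)).Opens) (s : Γ(M₁, U)),
      (𝟙 M₁ : M₁ ⟶ M₁).app U s = s := by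
    intro M₁ U s
    rw [Scheme.Modules.Hom.id_app]
    rfl
  have hφψ : φ ≫ ψ = 𝟙 L := by
    rw [uL (φ ≫ ψ) ⟨fun s => ?_, fun s => ?_⟩, uL (𝟙 L) ⟨fun s => ?_, fun s => ?_⟩]
    · rw [id_app_apply]; rfl
    · rw [id_app_apply]; rfl
    · rw [comp_app_apply, hψ.1, hφ.1]
      exact I.e₀.symm_apply_apply _
    · rw [comp_app_apply, hψ.2, hφ.2]
      exact I.e₁.symm_apply_apply _
  have hψφ : ψ ≫ φ = 𝟙 L' := by
    rw [uL' (ψ ≫ φ) ⟨fun s => ?_, fun s => ?_⟩, uL' (𝟙 L') ⟨fun s => ?_, fun s => ?_⟩]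
    · rw [id_app_apply]; rfl
    · rw [id_app_apply]; rfl
    · rw [comp_app_apply, hφ.1, hψ.1]
      exact I.e₀.apply_symm_apply _
    · rw [comp_app_apply, hφ.2, hψ.2]
      exact I.e₁.apply_symm_apply _
  exact ⟨⟨φ, ψ, hφψ, hψφ⟩⟩

/-- **DictIso, direction `←`**, in the shape of the frozen statement. -/
theorem dictIso_mpr (Ch : ChartOf c ε) (M M' : RigidifiedLineBundle c ε (specStr k A))
    (G G' : CurveGD k Ch.B₀ Ch.B₁ Ch.B₀₁ A) (hG : Corr Ch A M.L G) (hG' : Corr Ch A M'.L G')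
    (h : G.IsIso G') : RIso M M' := by
  have : M.L.IsQuasicoherent := isQuasicoherent_of_isInvertible M.isInvertible
  have : M'.L.IsQuasicoherent := isQuasicoherent_of_isInvertible M'.isInvertible
  exact iso_of_glueDatum_iso Ch G G' hG hG' h.some

/-- **DICT-ISO**: the correspondence between rigidified line bundles on `C_A` and gluing data
preserves and reflects isomorphism. -/
theorem dictIso (Ch : ChartOf c ε) : Stmt.DictIso Ch :=
  fun _ _ _ M M' G G' hG hG' =>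
    ⟨dictIso_mp Ch M M' G G' hG hG', dictIso_mpr Ch M M' G G' hG hG'⟩

end

end Fermat.Agent.S25.H986
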