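import Mathlib
import Fermat.Prelude.Def_AlgebraicGeometry_RelativePicardFunctor

/-!
# S25 / block GLUE / leaf G4, part 1: multiplication by a global function

For a scheme `X`, a sheaf of modules `M : X.Modules` and `r : Γ(X, ⊤)` we define the endomorphism
`globalSmulHom M r : M ⟶ M` ("multiplication by `r`"), bundle it as a ring homomorphism
`globalSmul M : Γ(X, ⊤) →+* End M`, and prove that it is central (natural in `M`).
-/

set_option autoImplicit false

universe u

open CategoryTheory AlgebraicGeometry TopologicalSpace Opposite

namespace Fermat.Agent.S25.H986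

noncomputable section

variable {X : Scheme.{u}}

/-- Restriction of a global function to an open subset. -/
def resTop (X : Scheme.{u}) (U : X.Opens) : Γ(X, ⊤) →+* Γ(X, U) :=
  (X.presheaf.map (homOfLE (le_top : U ≤ ⊤)).op).hom

theorem resTop_apply (U : X.Opens) (r : Γ(X, ⊤)) :
    resTop X U r = X.presheaf.map (homOfLE (le_top : U ≤ ⊤)).op r := rfl

theorem map_resTop {U V : X.Opens} (i : U ⟶ V) (r : Γ(X, ⊤)) :
    X.presheaf.map i.op (resTop X V r) = resTop X U r := by
  simp only [resTop_apply, ← CommRingCat.comp_apply, ← Functor.map_comp]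
  rfl

@[simp]
theorem resTop_top (r : Γ(X, ⊤)) : resTop X ⊤ r = r := by
  simp [resTop_apply]

/-- Multiplication by a global function `r`, as an endomorphism of the underlying presheaf of
abelian groups. -/
def globalSmulPresheafHom (M : X.Modules) (r : Γ(X, ⊤)) : M.presheaf ⟶ M.presheaf where
  app U := M.smul (resTop X U.unop r)
  naturality U V i := by
    have h := Scheme.Modules.map_comp_smul (M := M) i.unop (resTop X U.unop r)
    rw [map_resTop] at h
    exact h.symm

/-- Multiplication by a global function `r`, as an endomorphism of `M`. -/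
def globalSmulHom (M : X.Modules) (r : Γ(X, ⊤)) : M ⟶ M :=
  (⟨PresheafOfModules.homMk (M₁ := M.val) (M₂ := M.val) (globalSmulPresheafHom M r)
    (fun U s m => by
      let r' : X.ringCatSheaf.obj.obj U := resTop X U.unop r
      have hcomm : r' * s = s * r' := mul_comm (G := Γ(X, U.unop)) _ _
      change r' • (s • m) = s • (r' • m)
      rw [smul_smul, smul_smul, hcomm])⟩ : SheafOfModules.Hom M M)

@[simp]
theorem globalSmulHom_app (M : X.Modules) (r : Γ(X, ⊤)) (U : X.Opens) (m : Γ(M, U)) :
    (globalSmulHom M r).app U m = resTop X U r • m := rfl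

/-- Multiplication by a global function commutes with every morphism of modules. -/
theorem globalSmulHom_comm {M N : X.Modules} (φ : M ⟶ N) (r : Γ(X, ⊤)) :
    globalSmulHom M r ≫ φ = φ ≫ globalSmulHom N r := by
  ext U m
  simp

@[simp]
theorem globalSmulHom_one (M : X.Modules) : globalSmulHom M 1 = 𝟙 M := by
  ext U m
  simp

@[simp]
theorem globalSmulHom_zero (M : X.Modules) : globalSmulHom M 0 = 0 := by
  ext U m
  simp

theorem globalSmulHom_add (M : X.Modules) (r s : Γ(X, ⊤)) :
    globalSmulHom M (r + s) = globalSmulHom M r + globalSmulHom M s := by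
  ext U m
  simp [add_smul]

theorem globalSmulHom_mul (M : X.Modules) (r s : Γ(X, ⊤)) :
    globalSmulHom M (r * s) = globalSmulHom M s ≫ globalSmulHom M r := by
  ext U m
  simp [mul_smul, smul_comm (resTop X U r) (resTop X U s) m]

/-- Multiplication by global functions, as a ring homomorphism `Γ(X, ⊤) →+* End M`. -/
def globalSmul (M : X.Modules) : Γ(X, ⊤) →+* End M where
  toFun r := globalSmulHom M r
  map_one' := globalSmulHom_one M
  map_mul' r s := globalSmulHom_mul M r s
  map_zero' := globalSmulHom_zero M
  map_add' r s := globalSmulHom_add M r s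

@[simp]
theorem globalSmul_apply (M : X.Modules) (r : Γ(X, ⊤)) : globalSmul M r = globalSmulHom M r := rfl

/-- The image of `globalSmul` is central. -/
theorem globalSmul_comm (M : X.Modules) (r : Γ(X, ⊤)) (φ : End M) :
    globalSmul M r * φ = φ * globalSmul M r :=
  (globalSmulHom_comm φ r).symm

/-- Transport of `globalSmulHom` along an isomorphism. -/
theorem globalSmulHom_conj {M N : X.Modules} (e : M ≅ N) (r : Γ(X, ⊤)) :
    e.inv ≫ globalSmulHom M r ≫ e.hom = globalSmulHom N r := by
  rw [globalSmulHom_comm, Iso.inv_hom_id_assoc]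

theorem globalSmul_bijective_of_iso {M N : X.Modules} (e : M ≅ N)
    (h : Function.Bijective (globalSmul M)) : Function.Bijective (globalSmul N) := by
  constructor
  · intro r s hrs
    apply h.1
    change globalSmulHom N r = globalSmulHom N s at hrs
    change globalSmulHom M r = globalSmulHom M s
    rw [← globalSmulHom_conj e.symm r, ← globalSmulHom_conj e.symm s, hrs]
  · intro φ
    obtain ⟨r, hr⟩ := h.2 (e.hom ≫ φ ≫ e.inv)
    refine ⟨r, ?_⟩
    change globalSmulHom M r = _ at hr
    change globalSmulHom N r = φ
    rw [← globalSmulHom_conj e r, hr]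
    simp

end

end Fermat.Agent.S25.H986
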