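import Mathlib
import Fermat.Prelude.Def_AlgebraicGeometry_RelativePicardFunctor
import Fermat.Agent.S25.H986.GlobalSmul

/-!
# S25 / block GLUE: `𝒪`-linearity of pushforward and pullback

For a morphism of schemes `f : Y ⟶ X`:

* `pushforward_map_globalSmulHom` :
  `(pushforward f).map (globalSmulHom N (f.appTop r)) = globalSmulHom ((pushforward f).obj N) r`.
* `pullback_map_globalSmulHom` :
  `(pullback f).map (globalSmulHom M r) = globalSmulHom ((pullback f).obj M) (f.appTop r)`.
-/

set_option autoImplicit false

universe u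

open CategoryTheory AlgebraicGeometry TopologicalSpace Opposite

namespace Fermat.Agent.S25.H986

noncomputable section

variable {X Y : Scheme.{u}}

/-- The module structure on the sections of a pushforward. -/
theorem pushforward_smul (f : Y ⟶ X) (N : Y.Modules) (U : X.Opens) (a : Γ(X, U))
    (m : Γ((Scheme.Modules.pushforward f).obj N, U)) :
    a • m = (show Γ(N, f ⁻¹ᵁ U) from (f.app U a) • (show Γ(N, f ⁻¹ᵁ U) from m)) := rfl

/-- Naturality of restriction from the top, with respect to a morphism of schemes. -/
theorem app_resTop (f : Y ⟶ X) (U : X.Opens) (r : Γ(X, ⊤)) :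
    f.app U (resTop X U r) = resTop Y (f ⁻¹ᵁ U) (f.appTop r) := by
  have h := f.naturality (homOfLE (le_top : U ≤ ⊤)).op
  exact congr($h r)

/-- Pushforward is `𝒪`-linear on morphisms. -/
theorem pushforward_map_globalSmulHom (f : Y ⟶ X) (N : Y.Modules) (r : Γ(X, ⊤)) :
    (Scheme.Modules.pushforward f).map (globalSmulHom N (f.appTop r)) =
      globalSmulHom ((Scheme.Modules.pushforward f).obj N) r := by
  ext U m
  have h1 : ((Scheme.Modules.pushforward f).map (globalSmulHom N (f.appTop r))).app U m =
      (show Γ(N, f ⁻¹ᵁ U) from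
        resTop Y (f ⁻¹ᵁ U) (f.appTop r) • (show Γ(N, f ⁻¹ᵁ U) from m)) := rfl
  have h2 : (globalSmulHom ((Scheme.Modules.pushforward f).obj N) r).app U m =
      (show Γ(N, f ⁻¹ᵁ U) from
        (f.app U (resTop X U r)) • (show Γ(N, f ⁻¹ᵁ U) from m)) := rfl
  rw [app_resTop] at h2
  exact h1.trans h2.symm

/-- A morphism `ψ : f^* M ⟶ f^* M` is the pullback of `φ : M ⟶ M` as soon as it is compatible
with the unit of the adjunction. -/
theorem pullback_map_eq_of_unit_comp (f : Y ⟶ X) {M M' : X.Modules} (φ : M ⟶ M')
    (ψ : (Scheme.Modules.pullback f).obj M ⟶ (Scheme.Modules.pullback f).obj M')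
    (h : (Scheme.Modules.pullbackPushforwardAdjunction f).unit.app M ≫
        (Scheme.Modules.pushforward f).map ψ =
      φ ≫ (Scheme.Modules.pullbackPushforwardAdjunction f).unit.app M') :
    (Scheme.Modules.pullback f).map φ = ψ := by
  apply ((Scheme.Modules.pullbackPushforwardAdjunction f).homEquiv _ _).injective
  rw [Adjunction.homEquiv_unit, Adjunction.homEquiv_unit, h]
  exact ((Scheme.Modules.pullbackPushforwardAdjunction f).unit.naturality φ).symm

/-- **Pullback is `𝒪`-linear on morphisms**: the pullback of multiplication by `r` is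
multiplication by `f^♯ r`. -/
theorem pullback_map_globalSmulHom (f : Y ⟶ X) (M : X.Modules) (r : Γ(X, ⊤)) :
    (Scheme.Modules.pullback f).map (globalSmulHom M r) =
      globalSmulHom ((Scheme.Modules.pullback f).obj M) (f.appTop r) := by
  apply pullback_map_eq_of_unit_comp
  rw [pushforward_map_globalSmulHom]
  exact (globalSmulHom_comm _ r).symm

end

end Fermat.Agent.S25.H986
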