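import Mathlib
import Fermat.Agent.S25.H626.SmulHom
import Fermat.Agent.S25.H986.PullbackSmul

/-!
# Bridge to helper626's `smulHom` (G4 on main)

`Fermat.Agent.S25.H626.smulHom M r = Fermat.Agent.S25.H986.globalSmulHom M r`, hence the
`𝒪`-linearity of pushforward and pullback for `smulHom`:

* `pushforward_map_smulHom`, `pullback_map_smulHom`.
-/

set_option autoImplicit false

universe u

open CategoryTheory AlgebraicGeometry TopologicalSpace Opposite

namespace Fermat.Agent.S25.H986

noncomputable section

variable {X Y : Scheme.{u}}

theorem smulHom_eq_globalSmulHom (M : X.Modules) (r : Γ(X, ⊤)) :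
    Fermat.Agent.S25.H626.smulHom M r = globalSmulHom M r := rfl

/-- Pushforward is `𝒪`-linear on morphisms (for helper626's `smulHom`). -/
theorem pushforward_map_smulHom (f : Y ⟶ X) (N : Y.Modules) (r : Γ(X, ⊤)) :
    (Scheme.Modules.pushforward f).map (Fermat.Agent.S25.H626.smulHom N (f.appTop r)) =
      Fermat.Agent.S25.H626.smulHom ((Scheme.Modules.pushforward f).obj N) r :=
  pushforward_map_globalSmulHom f N r

/-- Pullback is `𝒪`-linear on morphisms (for helper626's `smulHom`): the pullback of
multiplication by `r` is multiplication by `f^♯ r`. -/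
theorem pullback_map_smulHom (f : Y ⟶ X) (M : X.Modules) (r : Γ(X, ⊤)) :
    (Scheme.Modules.pullback f).map (Fermat.Agent.S25.H626.smulHom M r) =
      Fermat.Agent.S25.H626.smulHom ((Scheme.Modules.pullback f).obj M) (f.appTop r) :=
  pullback_map_globalSmulHom f M r

end

end Fermat.Agent.S25.H986
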