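import Mathlib
import Fermat.Prelude.Def_AlgebraicGeometry_RelativePicardFunctor
import Fermat.Agent.S25.H986.InvertibleLocal
import Fermat.Agent.S25.H986.GlobalSmul

/-!
# S25 / block GLUE / leaf G4, part 2: free generators of an invertible module

`IsFreeGenerator M B g` : the section `g ∈ Γ(M, B)` freely generates `M` over the open `B`, i.e.
for every open `W ≤ B` the map `Γ(X, W) → Γ(M, W)`, `a ↦ a • g|_W`, is bijective.

* `isFreeGenerator_of_restrictIso` : a trivialisation `(restrictFunctor U.ι).obj M ≅ unit`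
  produces a free generator of `M` over `U`.
* `exists_isFreeGenerator_of_isInvertible` : an invertible module has free generators locally.
-/

set_option autoImplicit false

universe u

open CategoryTheory AlgebraicGeometry TopologicalSpace Opposite

namespace Fermat.Agent.S25.H986

noncomputable section

variable {X : Scheme.{u}}

/-- The section `g ∈ Γ(M, B)` freely generates `M` over the open `B`: for every open `W ≤ B`,
the map `Γ(X, W) → Γ(M, W)`, `a ↦ a • g|_W` is bijective. -/
def IsFreeGenerator (M : X.Modules) (B : X.Opens) (g : Γ(M, B)) : Prop :=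
  ∀ (W : X.Opens) (h : W ≤ B),
    Function.Bijective (fun a : Γ(X, W) => a • M.presheaf.map (homOfLE h).op g)

theorem IsFreeGenerator.restrict {M : X.Modules} {B : X.Opens} {g : Γ(M, B)}
    (hg : IsFreeGenerator M B g) {B' : X.Opens} (h : B' ≤ B) :
    IsFreeGenerator M B' (M.presheaf.map (homOfLE h).op g) := by
  intro W hW
  have := hg W (hW.trans h)
  convert this using 3
  rw [← ConcreteCategory.comp_apply, ← Functor.map_comp]
  rfl

/-- Transport of bijectivity of `a ↦ a • g` along an equality of opens. -/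
theorem bijective_smul_map_of_eq (M : X.Modules) {W W' : X.Opens} (h : W = W') (g' : Γ(M, W'))
    (hg : Function.Bijective (fun a : Γ(X, W') => a • g')) :
    Function.Bijective (fun a : Γ(X, W) => a • M.presheaf.map (homOfLE h.le).op g') := by
  subst h
  have : M.presheaf.map (homOfLE (le_refl W)).op = 𝟙 _ := M.presheaf.map_id _
  simpa [this] using hg

/-- The structure sheaf as an object of `Y.Modules` (reducible abbreviation of
`SheafOfModules.unit Y.ringCatSheaf`). -/
abbrev unitModule (Y : Scheme.{u}) : Y.Modules := SheafOfModules.unit Y.ringCatSheaf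

/-- The sections of the unit module are the functions. -/
def unitSectionsEquiv (Y : Scheme.{u}) (V : Y.Opens) : Γ(unitModule Y, V) ≃+ Γ(Y, V) :=
  AddEquiv.refl _

theorem unitSectionsEquiv_smul (Y : Scheme.{u}) (V : Y.Opens) (a : Γ(Y, V))
    (m : Γ(unitModule Y, V)) :
    unitSectionsEquiv Y V (a • m) = a * unitSectionsEquiv Y V m := rfl

theorem unitSectionsEquiv_map (Y : Scheme.{u}) {V V' : Y.Opens} (i : V' ⟶ V)
    (m : Γ(unitModule Y, V)) :
    unitSectionsEquiv Y V' ((unitModule Y).presheaf.map i.op m) =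
      Y.presheaf.map i.op (unitSectionsEquiv Y V m) := rfl

/-- The section `1` of the unit module over `V`. -/
def unitOne (Y : Scheme.{u}) (V : Y.Opens) : Γ(unitModule Y, V) :=
  (unitSectionsEquiv Y V).symm 1

theorem smul_unitOne (Y : Scheme.{u}) (V : Y.Opens) (a : Γ(Y, V)) :
    a • unitOne Y V = (unitSectionsEquiv Y V).symm a := by
  apply (unitSectionsEquiv Y V).injective
  rw [unitSectionsEquiv_smul, unitOne, AddEquiv.apply_symm_apply, AddEquiv.apply_symm_apply,
    mul_one]

theorem map_unitOne (Y : Scheme.{u}) {V V' : Y.Opens} (i : V' ⟶ V) :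
    (unitModule Y).presheaf.map i.op (unitOne Y V) = unitOne Y V' := by
  apply (unitSectionsEquiv Y V').injective
  rw [unitSectionsEquiv_map, unitOne, unitOne, AddEquiv.apply_symm_apply,
    AddEquiv.apply_symm_apply, map_one]

theorem bijective_smul_unitOne (Y : Scheme.{u}) (V : Y.Opens) :
    Function.Bijective (fun a : Γ(Y, V) => a • unitOne Y V) := by
  have : (fun a : Γ(Y, V) => a • unitOne Y V) = (unitSectionsEquiv Y V).symm := by
    funext a
    exact smul_unitOne Y V a
  rw [this]
  exact (unitSectionsEquiv Y V).symm.bijective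

/-- Naturality of `Hom.app`, elementwise. -/
theorem app_map_apply {M N : X.Modules} (φ : M ⟶ N) {U V : X.Opens} (i : V ⟶ U) (m : Γ(M, U)) :
    φ.app V (M.presheaf.map i.op m) = N.presheaf.map i.op (φ.app U m) :=
  NatTrans.naturality_apply φ.mapPresheaf i.op m

/-- An isomorphism with the unit module gives a free generator over `⊤`. -/
theorem isFreeGenerator_of_iso_unit {Y : Scheme.{u}} {N : Y.Modules} (e : N ≅ unitModule Y) :
    IsFreeGenerator N ⊤ (e.inv.app ⊤ (unitOne Y ⊤)) := by
  intro W h
  have h1 : N.presheaf.map (homOfLE h).op (e.inv.app ⊤ (unitOne Y ⊤)) =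
      e.inv.app W (unitOne Y W) := by
    rw [← map_unitOne Y (homOfLE h), app_map_apply]
  have h2 : (fun a : Γ(Y, W) => a • N.presheaf.map (homOfLE h).op (e.inv.app ⊤ (unitOne Y ⊤))) =
      (e.inv.app W) ∘ (fun a : Γ(Y, W) => a • unitOne Y W) := by
    funext a
    rw [h1, Function.comp_apply, Scheme.Modules.Hom.app_smul]
  rw [h2]
  exact (ConcreteCategory.bijective_of_isIso (e.inv.app W)).comp (bijective_smul_unitOne Y W)

/-- Composite of two restriction maps, elementwise. -/
theorem map_map_apply (M : X.Modules) {U V W : X.Opens} (i : V ⟶ U) (j : W ⟶ V) (m : Γ(M, U)) :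
    M.presheaf.map j.op (M.presheaf.map i.op m) = M.presheaf.map (j ≫ i).op m := by
  rw [← ConcreteCategory.comp_apply, ← Functor.map_comp]
  rfl

/-- Sectionwise description of the module structure of a restriction. -/
theorem restrictAppIso_hom_smul {Y : Scheme.{u}} (f : Y ⟶ X) [IsOpenImmersion f] (M : X.Modules)
    (V : Y.Opens) (b : Γ(X, f ''ᵁ V)) (m : Γ(M.restrict f, V)) :
    (M.restrictAppIso f V).hom (((f.appIso V).hom b) • m) = b • (M.restrictAppIso f V).hom m := by
  simp

/-- Sectionwise description of the restriction maps of a restriction. -/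
theorem restrictAppIso_hom_map {Y : Scheme.{u}} (f : Y ⟶ X) [IsOpenImmersion f] (M : X.Modules)
    {V V' : Y.Opens} (h : V' ≤ V) (m : Γ(M.restrict f, V)) :
    (M.restrictAppIso f V').hom ((M.restrict f).presheaf.map (homOfLE h).op m) =
      M.presheaf.map (homOfLE (f.image_mono h)).op ((M.restrictAppIso f V).hom m) :=
  rfl

/-- A free generator of the restriction `M.restrict f` over `⊤` gives a free generator of `M`
over the image of `f`. -/
theorem isFreeGenerator_of_restrict {Y : Scheme.{u}} (f : Y ⟶ X) [IsOpenImmersion f]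
    (M : X.Modules) (g : Γ(M.restrict f, ⊤)) (hg : IsFreeGenerator (M.restrict f) ⊤ g) :
    IsFreeGenerator M (f ''ᵁ ⊤) ((M.restrictAppIso f ⊤).hom g) := by
  intro W hW
  have hWV : W = f ''ᵁ (f ⁻¹ᵁ W) := by
    rw [f.image_preimage_eq_opensRange_inf, ← f.image_top_eq_opensRange]
    exact (inf_eq_right.mpr hW).symm
  have hV := hg (f ⁻¹ᵁ W) le_top
  have claim : Function.Bijective (fun b : Γ(X, f ''ᵁ (f ⁻¹ᵁ W)) =>
      b • (M.restrictAppIso f (f ⁻¹ᵁ W)).hom
        ((M.restrict f).presheaf.map (homOfLE (le_top : f ⁻¹ᵁ W ≤ ⊤)).op g)) := by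
    have : (fun b : Γ(X, f ''ᵁ (f ⁻¹ᵁ W)) =>
        b • (M.restrictAppIso f (f ⁻¹ᵁ W)).hom
          ((M.restrict f).presheaf.map (homOfLE (le_top : f ⁻¹ᵁ W ≤ ⊤)).op g)) =
        (M.restrictAppIso f (f ⁻¹ᵁ W)).hom ∘
          (fun a : Γ(Y, f ⁻¹ᵁ W) =>
            a • (M.restrict f).presheaf.map (homOfLE (le_top : f ⁻¹ᵁ W ≤ ⊤)).op g) ∘
          (f.appIso (f ⁻¹ᵁ W)).hom := by
      funext b
      simp only [Function.comp_apply]
      rw [restrictAppIso_hom_smul]
    rw [this]
    exact ((ConcreteCategory.bijective_of_isIso (M.restrictAppIso f (f ⁻¹ᵁ W)).hom).comp hV).comp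
      (ConcreteCategory.bijective_of_isIso (f.appIso (f ⁻¹ᵁ W)).hom)
  have key := bijective_smul_map_of_eq M hWV _ claim
  convert key using 3
  rw [restrictAppIso_hom_map, map_map_apply]
  rfl

/-- A trivialisation of the restriction of `M` along an open immersion `f` gives a free generator
of `M` over the image of `f`. -/
theorem exists_isFreeGenerator_of_restrictIso {Y : Scheme.{u}} (f : Y ⟶ X) [IsOpenImmersion f]
    (M : X.Modules) (e : M.restrict f ≅ unitModule Y) :
    ∃ g : Γ(M, f ''ᵁ ⊤), IsFreeGenerator M (f ''ᵁ ⊤) g :=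
  ⟨_, isFreeGenerator_of_restrict f M _ (isFreeGenerator_of_iso_unit e)⟩

/-- The sectionwise notion of "locally free of rank one". -/
def HasLocalFreeGenerators (M : X.Modules) : Prop :=
  ∀ x : X, ∃ (B : X.Opens), x ∈ B ∧ ∃ g : Γ(M, B), IsFreeGenerator M B g

/-- An invertible module has free generators locally. -/
theorem hasLocalFreeGenerators_of_isInvertible {M : X.Modules}
    (hM : Scheme.Modules.IsInvertible M) : HasLocalFreeGenerators M := by
  intro x
  obtain ⟨U, hxU, ⟨e⟩⟩ := (isInvertible_iff_restrict M).mp hM x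
  obtain ⟨g, hg⟩ := exists_isFreeGenerator_of_restrictIso U.ι M e
  refine ⟨U.ι ''ᵁ ⊤, ?_, g, hg⟩
  rw [Scheme.Opens.ι_image_top]
  exact hxU

end

end Fermat.Agent.S25.H986
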