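import Mathlib
import Fermat.Prelude.Def_AlgebraicGeometry_RelativePicardFunctor
import Fermat.Agent.S25.H986.FreeGenerator

/-!
# S25 / block GLUE / leaf G4, part 3: `End M ≅ Γ(X, ⊤)` for invertible `M`

* `globalSmul_bijective_of_hasLocalFreeGenerators`, `globalSmul_bijective_of_isInvertible` :
  for an invertible module `M` on `X`, multiplication by global functions
  `globalSmul M : Γ(X, ⊤) →+* End M` is bijective.
* `endRingEquiv` : the resulting ring isomorphism `Γ(X, ⊤) ≃+* End M`.
* `autMulEquiv` : the resulting group isomorphism `Γ(X, ⊤)ˣ ≃* Aut M`.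
-/

set_option autoImplicit false

universe u

open CategoryTheory AlgebraicGeometry TopologicalSpace Opposite

namespace Fermat.Agent.S25.H986

noncomputable section

variable {X : Scheme.{u}}

/-- Two functions on `W` agreeing on the members of a cover of `W` are equal. -/
theorem eq_of_forall_restrict_eq_fun (X : Scheme.{u}) (W : X.Opens) {ι : Type*}
    (B : ι → X.Opens) (hB : ∀ x ∈ W, ∃ i, x ∈ B i) (s t : Γ(X, W))
    (h : ∀ i, X.presheaf.map (homOfLE (inf_le_left : W ⊓ B i ≤ W)).op s =
      X.presheaf.map (homOfLE (inf_le_left : W ⊓ B i ≤ W)).op t) : s = t := by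
  refine X.sheaf.eq_of_locally_eq' (fun i => W ⊓ B i) W (fun i => homOfLE inf_le_left) ?_ s t h
  intro x hx
  obtain ⟨i, hi⟩ := hB x hx
  exact Opens.mem_iSup.mpr ⟨i, ⟨hx, hi⟩⟩

/-- Two sections of a module on `W` agreeing on the members of a cover of `W` are equal. -/
theorem eq_of_forall_restrict_eq_sec (M : X.Modules) (W : X.Opens) {ι : Type*}
    (B : ι → X.Opens) (hB : ∀ x ∈ W, ∃ i, x ∈ B i) (s t : Γ(M, W))
    (h : ∀ i, M.presheaf.map (homOfLE (inf_le_left : W ⊓ B i ≤ W)).op s =
      M.presheaf.map (homOfLE (inf_le_left : W ⊓ B i ≤ W)).op t) : s = t := by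
  refine TopCat.Sheaf.eq_of_locally_eq' ⟨M.presheaf, M.isSheaf⟩ (fun i => W ⊓ B i) W
    (fun i => homOfLE inf_le_left) ?_ s t h
  intro x hx
  obtain ⟨i, hi⟩ := hB x hx
  exact Opens.mem_iSup.mpr ⟨i, ⟨hx, hi⟩⟩

/-- Composite of two restriction maps of functions, elementwise. -/
theorem map_map_apply_fun (X : Scheme.{u}) {U V W : X.Opens} (i : V ⟶ U) (j : W ⟶ V)
    (r : Γ(X, U)) :
    X.presheaf.map j.op (X.presheaf.map i.op r) = X.presheaf.map (j ≫ i).op r := by
  rw [← CommRingCat.comp_apply, ← Functor.map_comp]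
  rfl

theorem map_id_apply_sec (M : X.Modules) (U : X.Opens) (i : U ⟶ U) (m : Γ(M, U)) :
    M.presheaf.map i.op m = m := by
  have : i = 𝟙 U := Subsingleton.elim _ _
  subst this
  have : M.presheaf.map (𝟙 U).op = 𝟙 _ := M.presheaf.map_id _
  rw [this]
  rfl

/-- An endomorphism acts on a free generator `g` over `B` through a unique function on `B`. -/
theorem IsFreeGenerator.exists_app_eq_smul {M : X.Modules} {B : X.Opens} {g : Γ(M, B)}
    (hg : IsFreeGenerator M B g) (φ : M ⟶ M) : ∃ s : Γ(X, B), φ.app B g = s • g := by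
  obtain ⟨s, hs⟩ := (hg B le_rfl).2 (φ.app B g)
  refine ⟨s, ?_⟩
  simp only [map_id_apply_sec] at hs
  exact hs.symm

/-- If `φ g = s • g` for a free generator `g` over `B`, then `φ` is multiplication by `s`
on every open contained in `B`. -/
theorem IsFreeGenerator.app_eq_smul {M : X.Modules} {B : X.Opens} {g : Γ(M, B)}
    (hg : IsFreeGenerator M B g) (φ : M ⟶ M) (s : Γ(X, B)) (hs : φ.app B g = s • g)
    (W : X.Opens) (h : W ≤ B) (m : Γ(M, W)) :
    φ.app W m = X.presheaf.map (homOfLE h).op s • m := by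
  obtain ⟨a, rfl⟩ := (hg W h).2 m
  simp only
  rw [Scheme.Modules.Hom.app_smul, app_map_apply, hs, Scheme.Modules.map_smul, smul_comm]

/-- A function acting trivially on a module with a free generator is zero. -/
theorem IsFreeGenerator.eq_of_forall_smul_eq {M : X.Modules} {B : X.Opens} {g : Γ(M, B)}
    (hg : IsFreeGenerator M B g) (W : X.Opens) (h : W ≤ B) (a b : Γ(X, W))
    (hab : ∀ m : Γ(M, W), a • m = b • m) : a = b :=
  (hg W h).1 (hab _)

theorem globalSmul_injective_of_hasLocalFreeGenerators {M : X.Modules}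
    (hM : HasLocalFreeGenerators M) : Function.Injective (globalSmul M) := by
  intro r r' hrr'
  choose B hxB g hg using hM
  refine eq_of_forall_restrict_eq_fun X ⊤ B (fun x _ => ⟨x, hxB x⟩) r r' (fun x => ?_)
  refine (hg x).eq_of_forall_smul_eq (⊤ ⊓ B x) inf_le_right _ _ (fun m => ?_)
  have h1 : (globalSmulHom M r).app (⊤ ⊓ B x) m = (globalSmulHom M r').app (⊤ ⊓ B x) m := by
    change globalSmulHom M r = globalSmulHom M r' at hrr'
    rw [hrr']
  simpa [globalSmulHom_app, resTop_apply] using h1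

theorem globalSmul_surjective_of_hasLocalFreeGenerators {M : X.Modules}
    (hM : HasLocalFreeGenerators M) : Function.Surjective (globalSmul M) := by
  intro (φ : M ⟶ M)
  choose B hxB g hg using hM
  have hs : ∀ x, ∃ s : Γ(X, B x), φ.app (B x) (g x) = s • g x :=
    fun x => (hg x).exists_app_eq_smul φ
  choose s hs using hs
  have hloc : ∀ x (W : X.Opens) (h : W ≤ B x) (m : Γ(M, W)),
      φ.app W m = X.presheaf.map (homOfLE h).op (s x) • m :=
    fun x => (hg x).app_eq_smul φ (s x) (hs x)
  have hglue : ∃ r : Γ(X, ⊤), ∀ x, X.presheaf.map (homOfLE (le_top : B x ≤ ⊤)).op r = s x := by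
    have hcompat : TopCat.Presheaf.IsCompatible X.sheaf.1 B s := by
      intro x y
      refine (hg x).eq_of_forall_smul_eq (B x ⊓ B y) inf_le_left _ _ (fun m => ?_)
      exact (hloc x _ inf_le_left m).symm.trans (hloc y _ inf_le_right m)
    obtain ⟨r, hr, -⟩ := X.sheaf.existsUnique_gluing' B ⊤ (fun x => homOfLE le_top)
      (fun x _ => Opens.mem_iSup.mpr ⟨x, hxB x⟩) s hcompat
    exact ⟨r, hr⟩
  obtain ⟨r, hr⟩ := hglue
  refine ⟨r, ?_⟩
  change globalSmulHom M r = φ
  ext W m
  refine eq_of_forall_restrict_eq_sec M W B (fun x _ => ⟨x, hxB x⟩) _ _ (fun x => ?_)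
  rw [← app_map_apply, ← app_map_apply, hloc x (W ⊓ B x) inf_le_right, globalSmulHom_app]
  congr 1
  rw [resTop_apply, ← hr x]
  exact (map_map_apply_fun X _ _ r).symm

theorem globalSmul_bijective_of_hasLocalFreeGenerators {M : X.Modules}
    (hM : HasLocalFreeGenerators M) : Function.Bijective (globalSmul M) :=
  ⟨globalSmul_injective_of_hasLocalFreeGenerators hM,
    globalSmul_surjective_of_hasLocalFreeGenerators hM⟩

/-- **G4.** For an invertible module `M`, multiplication by global functions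
`Γ(X, ⊤) →+* End M` is bijective. -/
theorem globalSmul_bijective_of_isInvertible {M : X.Modules}
    (hM : Scheme.Modules.IsInvertible M) : Function.Bijective (globalSmul M) :=
  globalSmul_bijective_of_hasLocalFreeGenerators (hasLocalFreeGenerators_of_isInvertible hM)

/-- **G4.** `Γ(X, ⊤) ≃+* End M` for an invertible module `M`. -/
def endRingEquiv {M : X.Modules} (hM : Scheme.Modules.IsInvertible M) : Γ(X, ⊤) ≃+* End M :=
  RingEquiv.ofBijective (globalSmul M) (globalSmul_bijective_of_isInvertible hM)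

@[simp]
theorem endRingEquiv_apply {M : X.Modules} (hM : Scheme.Modules.IsInvertible M) (r : Γ(X, ⊤)) :
    endRingEquiv hM r = globalSmulHom M r := rfl

/-- **G4.** `Γ(X, ⊤)ˣ ≃* Aut M` for an invertible module `M`. -/
def autMulEquiv {M : X.Modules} (hM : Scheme.Modules.IsInvertible M) : Γ(X, ⊤)ˣ ≃* Aut M :=
  (Units.mapEquiv (endRingEquiv hM).toMulEquiv).trans (Aut.unitsEndEquivAut M)

end

end Fermat.Agent.S25.H986
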