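import Mathlib
import Fermat.Agent.S25.DefsDict
import Fermat.Agent.S25.H505.DictSections
import Fermat.Agent.S25.H986.InvertibleQCoh
import Fermat.Agent.S25.H986.AffineHom

/-!
# S25 / block DICT: the rigidification of a line bundle from its gluing datum

Converse of `H505.rigidifiable_of_corr`: if `L` is an invertible module on `C_A` whose gluing
datum of sections `G` is rigidifiable, then the pullback of `L` along the rigidifying section is
trivial.  Hence `Stmt.DictGlue` reduces to the construction of an invertible module with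
prescribed gluing datum of sections.

* `nonempty_iso_of_ΓLinearEquiv` : quasi-coherent modules on `Spec R` with linearly isomorphic
  global sections are isomorphic.
* `rigidified_of_corr` : `IsInvertible L → Corr Ch A L G → G.Rigidifiable Ch.e →
  Nonempty (σ^* L ≅ 𝒪)`.
* `dictGlue_of_exists_corr` : `Stmt.DictGlue Ch` from the existence of invertible modules with
  prescribed gluing datum.
-/

set_option autoImplicit false
universe u
open CategoryTheory CategoryTheory.Limits AlgebraicGeometry AlgebraicGeometry.RelPicard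
  NeronModelInfra GoodReductionJacobian
open scoped TensorProduct

namespace Fermat.Agent.S25.H986

open Fermat.Agent.S25

noncomputable section

/-- Quasi-coherent modules on `Spec R` with linearly isomorphic global sections are
isomorphic. -/
theorem nonempty_iso_of_ΓLinearEquiv {R : CommRingCat.{u}} (N N' : (Spec R).Modules)
    [N.IsQuasicoherent] [N'.IsQuasicoherent] (h : Γ(N, ⊤) ≃ₗ[R] Γ(N', ⊤)) :
    Nonempty (N ≅ N') := by
  obtain ⟨φ, hφ, -⟩ := existsUnique_hom_of_ΓLinearMap N N' h.toLinearMap
  obtain ⟨ψ, hψ, -⟩ := existsUnique_hom_of_ΓLinearMap N' N h.symm.toLinearMap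
  refine ⟨⟨φ, ψ, hom_ext_of_app_top _ _ fun s => ?_, hom_ext_of_app_top _ _ fun s => ?_⟩⟩
  · rw [Scheme.Modules.Hom.comp_app, Scheme.Modules.Hom.id_app]
    change ψ.app ⊤ (φ.app ⊤ s) = s
    rw [hφ, hψ]
    exact h.symm_apply_apply s
  · rw [Scheme.Modules.Hom.comp_app, Scheme.Modules.Hom.id_app]
    change φ.app ⊤ (ψ.app ⊤ s) = s
    rw [hψ, hφ]
    exact h.apply_symm_apply s

/-- Quasi-coherent modules on `Spec R` whose global sections are isomorphic, linearly over the
ring of global functions, are isomorphic. -/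
theorem nonempty_iso_of_addEquiv {R : CommRingCat.{u}} (N N' : (Spec R).Modules)
    [N.IsQuasicoherent] [N'.IsQuasicoherent] (h : Γ(N, ⊤) ≃+ Γ(N', ⊤))
    (hlin : ∀ (r : Γ(Spec R, ⊤)) (s : Γ(N, ⊤)), h (r • s) = r • h s) : Nonempty (N ≅ N') :=
  nonempty_iso_of_ΓLinearEquiv N N'
    { toFun := h
      invFun := h.symm
      left_inv := h.symm_apply_apply
      right_inv := h.apply_symm_apply
      map_add' := h.map_add
      map_smul' := fun a s => by
        rw [Scheme.Modules.smul_Spec_def, hlin]
        rfl }

variable {k : Type u} [Field k] {C : Scheme.{u}} {c : C ⟶ Spec (CommRingCat.of k)}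
  {ε : SchemeHomOver (𝟙 (Spec (CommRingCat.of k))) c}

/-- **Rigidification from the gluing datum.** If the gluing datum of sections of an invertible
module `L` on `C_A` is rigidifiable, then the pullback of `L` along the rigidifying section is
trivial. -/
theorem rigidified_of_corr (Ch : ChartOf c ε) (A : Type u) [CommRing A] [Algebra k A]
    (L : (pullback c (specStr k A)).Modules) (hL : Scheme.Modules.IsInvertible L)
    (G : CurveGD k Ch.B₀ Ch.B₁ Ch.B₀₁ A) (hG : Corr Ch A L G) (hrig : G.Rigidifiable Ch.e) :
    Nonempty ((Scheme.Modules.pullback (rigSection c (specStr k A) ε)).obj L ≅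
      SheafOfModules.unit (Spec (CommRingCat.of A)).ringCatSheaf) := by
  obtain ⟨e₀, e₁, e₀₁, h₀, h₁, h₀₁, hr₀, hr₁⟩ := hG
  obtain ⟨b, hb⟩ := hrig
  have hLq : L.IsQuasicoherent := isQuasicoherent_of_isInvertible hL
  have a₁ := H505.isAffineOpen_preimageOpen c A Ch.isAffine₁
  -- sections of the pullback are a base change
  have hκ : H505.IsBC (H505.rigRing Ch A)
      (H505.secMap (H505.rigMap (ε := ε) A) L (H505.le_rigMap_preimage Ch A)).hom :=
    H505.secMap_isBC _ L a₁ (isAffineOpen_top _) _
  -- the rigidification of the gluing datum, transported to sections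
  have hsl₁ := H505.isSL_of_isSectionsIso c Ch.isAffine₁ Ch.i₁ Ch.i₁_str L e₁ h₁
  have hb' : H505.IsBC (epsHom Ch.e A).toRingHom b.toAddMonoidHom :=
    H505.isBC_of_isSemilinearBaseChange _ b hb
  have h₂ : H505.IsBC ((epsHom Ch.e A).toRingHom.comp
      (H566.boxRingEquiv (A := A) Ch.isAffine₁ Ch.i₁ Ch.i₁_str).symm.toRingHom)
      (b.toAddMonoidHom.comp e₁.toAddMonoidHom) :=
    (H505.isBC_of_bijective hsl₁
      (H566.boxRingEquiv (A := A) Ch.isAffine₁ Ch.i₁ Ch.i₁_str).symm.bijective
      e₁.bijective).comp hb'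
  have hring : ∀ r, (Scheme.ΓSpecIso (CommRingCat.of A)).commRingCatIsoToRingEquiv
      (H505.rigRing Ch A r) = ((epsHom Ch.e A).toRingHom.comp
        (H566.boxRingEquiv (A := A) Ch.isAffine₁ Ch.i₁ Ch.i₁_str).symm.toRingHom) r :=
    fun r => by
      have := H505.rigRing_boxRingEquiv Ch A
        ((H566.boxRingEquiv (A := A) Ch.isAffine₁ Ch.i₁ Ch.i₁_str).symm r)
      rw [RingEquiv.apply_symm_apply] at this
      exact this
  obtain ⟨e, he, -⟩ := hκ.exists_equiv
    (Scheme.ΓSpecIso (CommRingCat.of A)).commRingCatIsoToRingEquiv h₂ hring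
  -- the unit
  let u : Γ(H566.unitModule (Spec (CommRingCat.of A)), ⊤) ≃+ A :=
    (H566.unitSections (X := Spec (CommRingCat.of A)) ⊤).trans
      (Scheme.ΓSpecIso (CommRingCat.of A)).commRingCatIsoToRingEquiv.toAddEquiv
  have hu : ∀ (r : Γ(Spec (CommRingCat.of A), ⊤))
      (s : Γ(H566.unitModule (Spec (CommRingCat.of A)), ⊤)),
      u (r • s) = (Scheme.ΓSpecIso (CommRingCat.of A)).commRingCatIsoToRingEquiv r * u s :=
    fun r s => by
      change (Scheme.ΓSpecIso (CommRingCat.of A)).commRingCatIsoToRingEquiv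
        (H566.unitSections (X := Spec (CommRingCat.of A)) ⊤ (r • s)) = _
      rw [H566.unitSections_smul, map_mul]
      rfl
  have hq₁ : ((Scheme.Modules.pullback (rigSection c (specStr k A) ε)).obj L).IsQuasicoherent :=
    isQuasicoherent_of_isInvertible (hL.pullback _)
  have hq₂ : (H566.unitModule (Spec (CommRingCat.of A))).IsQuasicoherent :=
    isQuasicoherent_of_isInvertible (Scheme.Modules.isInvertible_unit _)
  -- the linear equivalence on global sections
  have key : ∀ (r : Γ(Spec (CommRingCat.of A), ⊤))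
      (s : Γ((Scheme.Modules.pullback (rigSection c (specStr k A) ε)).obj L, ⊤)),
      (e.trans u.symm) (r • s) = r • (e.trans u.symm) s := fun r s => by
    change u.symm (e (r • s)) = r • u.symm (e s)
    apply u.injective
    rw [AddEquiv.apply_symm_apply, hu, AddEquiv.apply_symm_apply]
    exact he r s
  exact nonempty_iso_of_addEquiv (R := CommRingCat.of A) _ _ (e.trans u.symm) key

/-- **DICT-GLUE reduced**: `Stmt.DictGlue` follows from the existence, for every rigidifiable
gluing datum, of an invertible module with that gluing datum of sections. -/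
theorem dictGlue_of_exists_corr (Ch : ChartOf c ε)
    (H : ∀ (A : Type u) [CommRing A] [Algebra k A] (G : CurveGD k Ch.B₀ Ch.B₁ Ch.B₀₁ A),
      G.Rigidifiable Ch.e → ∃ L : (pullback c (specStr k A)).Modules,
        Scheme.Modules.IsInvertible L ∧ Corr Ch A L G) :
    Stmt.DictGlue Ch := by
  intro A _ _ G hrig
  obtain ⟨L, hL, hG⟩ := H A G hrig
  exact ⟨⟨L, hL, rigidified_of_corr Ch A L hL G hG hrig⟩, hG⟩

end

end Fermat.Agent.S25.H986
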