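import Mathlib
import Fermat.Prelude.Def_AlgebraicGeometry_RelativePicardFunctor
import Fermat.Agent.S25.H986.EndInvertible
import Fermat.Agent.S25.H986.PullbackSmul

/-!
# S25 / block GLUE: rigidity of invertible modules along a section

Setting: `σ : T ⟶ P` a morphism of schemes such that `σ.appTop : Γ(P, ⊤) → Γ(T, ⊤)` is injective
(e.g. `P = C ×ₖ T`, `σ` the rigidifying section, by F5).  Then an endomorphism of an invertible
module `L` on `P` is determined by its pullback along `σ`:

* `pullback_map_injective_of_isInvertible` : `(pullback σ).map` is injective on `L ⟶ L`.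
* `iso_ext_of_pullback_map_eq` : two isomorphisms `L ≅ L'` with the same pullback are equal.
* `exists_iso_pullback_map_comp_eq` (normalisation): if moreover `σ.appTop` is surjective, then
  for rigidifications `ρ`, `ρ'` of `L`, `L'` and any isomorphism `L ≅ L'` there is an
  isomorphism `e : L ≅ L'` compatible with the rigidifications.
* `existsUnique_iso_pullback_map_comp_eq` : ... and it is unique.
-/

set_option autoImplicit false

universe u

open CategoryTheory AlgebraicGeometry TopologicalSpace Opposite

namespace Fermat.Agent.S25.H986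

noncomputable section

variable {P T : Scheme.{u}}

/-- Pullback of endomorphisms of an invertible module along `σ` is injective as soon as
`σ.appTop` is injective. -/
theorem pullback_map_injective_of_isInvertible (σ : T ⟶ P)
    (hσ : Function.Injective σ.appTop) {L : P.Modules} (hL : Scheme.Modules.IsInvertible L)
    (α β : L ⟶ L)
    (h : (Scheme.Modules.pullback σ).map α = (Scheme.Modules.pullback σ).map β) : α = β := by
  obtain ⟨a, rfl⟩ := (globalSmul_bijective_of_isInvertible hL).2 α
  obtain ⟨b, rfl⟩ := (globalSmul_bijective_of_isInvertible hL).2 β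
  simp only [globalSmul_apply] at h ⊢
  rw [pullback_map_globalSmulHom, pullback_map_globalSmulHom] at h
  have h' := (globalSmul_bijective_of_isInvertible (hL.pullback σ)).1 h
  rw [hσ h']

/-- An endomorphism of an invertible module whose pullback along `σ` is the identity is the
identity. -/
theorem eq_id_of_pullback_map_eq_id (σ : T ⟶ P)
    (hσ : Function.Injective σ.appTop) {L : P.Modules} (hL : Scheme.Modules.IsInvertible L)
    (α : L ⟶ L) (h : (Scheme.Modules.pullback σ).map α = 𝟙 _) : α = 𝟙 L :=
  pullback_map_injective_of_isInvertible σ hσ hL α (𝟙 L)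
    (h.trans ((Scheme.Modules.pullback σ).map_id L).symm)

/-- Two isomorphisms between invertible modules with the same pullback along `σ` are equal. -/
theorem iso_ext_of_pullback_map_eq (σ : T ⟶ P)
    (hσ : Function.Injective σ.appTop) {L L' : P.Modules} (hL : Scheme.Modules.IsInvertible L)
    (e e' : L ≅ L')
    (h : (Scheme.Modules.pullback σ).map e.hom = (Scheme.Modules.pullback σ).map e'.hom) :
    e = e' := by
  have h1 : e.hom ≫ e'.inv = 𝟙 L := by
    apply eq_id_of_pullback_map_eq_id σ hσ hL
    rw [CategoryTheory.Functor.map_comp, h, ← CategoryTheory.Functor.map_comp, Iso.hom_inv_id,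
      CategoryTheory.Functor.map_id]
  ext1
  calc e.hom = e.hom ≫ e'.inv ≫ e'.hom := by simp
    _ = e'.hom := by rw [← Category.assoc, h1, Category.id_comp]

/-- The automorphism of the unit module attached to an automorphism: every automorphism of an
invertible module is multiplication by a unit. -/
theorem exists_unit_of_iso {X : Scheme.{u}} {L : X.Modules} (hL : Scheme.Modules.IsInvertible L)
    (α : L ≅ L) : ∃ u : (Γ(X, ⊤))ˣ, α.hom = globalSmulHom L u := by
  obtain ⟨a, ha⟩ := (globalSmul_bijective_of_isInvertible hL).2 α.hom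
  obtain ⟨b, hb⟩ := (globalSmul_bijective_of_isInvertible hL).2 α.inv
  simp only [globalSmul_apply] at ha hb
  have hab : a * b = 1 := by
    apply (globalSmul_bijective_of_isInvertible hL).1
    simp only [globalSmul_apply, globalSmulHom_mul, globalSmulHom_one, ha, hb, Iso.inv_hom_id]
  exact ⟨⟨a, b, hab, (mul_comm b a).trans hab⟩, ha.symm⟩

/-- Multiplication by a unit, as an automorphism. -/
def globalSmulIso {X : Scheme.{u}} (L : X.Modules) (u : (Γ(X, ⊤))ˣ) : L ≅ L where
  hom := globalSmulHom L u
  inv := globalSmulHom L (u⁻¹ : (Γ(X, ⊤))ˣ)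
  hom_inv_id := by rw [← globalSmulHom_mul, Units.inv_mul, globalSmulHom_one]
  inv_hom_id := by rw [← globalSmulHom_mul, Units.mul_inv, globalSmulHom_one]

@[simp]
theorem globalSmulIso_hom {X : Scheme.{u}} (L : X.Modules) (u : (Γ(X, ⊤))ˣ) :
    (globalSmulIso L u).hom = globalSmulHom L u := rfl

/-- **Normalisation.** Let `σ : T ⟶ P` with `σ.appTop` bijective, `L`, `L'` invertible on `P`
with rigidifications `ρ`, `ρ'` along `σ`. Every isomorphism `L ≅ L'` can be rescaled to an
isomorphism compatible with the rigidifications. -/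
theorem exists_iso_pullback_map_comp_eq (σ : T ⟶ P) (hσ : Function.Bijective σ.appTop)
    {L L' : P.Modules} (hL : Scheme.Modules.IsInvertible L)
    {O : T.Modules} (ρ : (Scheme.Modules.pullback σ).obj L ≅ O)
    (ρ' : (Scheme.Modules.pullback σ).obj L' ≅ O) (e : L ≅ L') :
    ∃ e' : L ≅ L', (Scheme.Modules.pullback σ).map e'.hom ≫ ρ'.hom = ρ.hom := by
  -- the defect is an automorphism of `σ^* L`
  let δ : (Scheme.Modules.pullback σ).obj L ≅ (Scheme.Modules.pullback σ).obj L :=
    ρ ≪≫ ρ'.symm ≪≫ ((Scheme.Modules.pullback σ).mapIso e).symm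
  obtain ⟨v, hv⟩ := exists_unit_of_iso (hL.pullback σ) δ
  let E : Γ(P, ⊤) ≃+* Γ(T, ⊤) := RingEquiv.ofBijective σ.appTop.hom hσ
  let u : (Γ(P, ⊤))ˣ := Units.map E.symm.toRingHom.toMonoidHom v
  have hu : σ.appTop (u : Γ(P, ⊤)) = v := E.apply_symm_apply v
  refine ⟨globalSmulIso L u ≪≫ e, ?_⟩
  rw [Iso.trans_hom, CategoryTheory.Functor.map_comp, globalSmulIso_hom,
    pullback_map_globalSmulHom, hu, ← hv]
  simp [δ]

/-- **Rigidity.** Let `σ : T ⟶ P` with `σ.appTop` bijective, `L`, `L'` invertible on `P` with
rigidifications `ρ`, `ρ'` along `σ`. If `L ≅ L'` then there is a unique isomorphism `L ≅ L'`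
compatible with the rigidifications. -/
theorem existsUnique_iso_pullback_map_comp_eq (σ : T ⟶ P) (hσ : Function.Bijective σ.appTop)
    {L L' : P.Modules} (hL : Scheme.Modules.IsInvertible L)
    {O : T.Modules} (ρ : (Scheme.Modules.pullback σ).obj L ≅ O)
    (ρ' : (Scheme.Modules.pullback σ).obj L' ≅ O) (e : L ≅ L') :
    ∃! e' : L ≅ L', (Scheme.Modules.pullback σ).map e'.hom ≫ ρ'.hom = ρ.hom := by
  obtain ⟨e', he'⟩ := exists_iso_pullback_map_comp_eq σ hσ hL ρ ρ' e
  refine ⟨e', he', fun e'' he'' => ?_⟩
  apply iso_ext_of_pullback_map_eq σ hσ.1 hL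
  rw [← cancel_mono ρ'.hom, he', he'']

end

end Fermat.Agent.S25.H986
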