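import Mathlib
import Fermat.Prelude.Def_AlgebraicGeometry_RelativePicardFunctor
import Fermat.Agent.S25.H205.GlobalSections
import Fermat.Agent.S25.H986.Rigidity

/-!
# S25 / AS6 input: rigidified line bundles have no automorphisms

Under the hypotheses of S25 (`k` algebraically closed, `c : C ⟶ Spec k` proper, `C` integral),
for every `k`-scheme `t : T ⟶ Spec k` the rigidifying section `σ = rigSection c t ε` induces a
bijection `Γ(C ×ₖ T, ⊤) → Γ(T, ⊤)` (F5, helper205).  Hence (G4 + `𝒪`-linearity of pullback):

* `rigSection_appTop_bijective`;
* `rigidified_iso_ext` : two isomorphisms of invertible modules on `C ×ₖ T` with the same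
  pullback along `σ` are equal;
* `rigidified_existsUnique_iso` : if `M.L ≅ M'.L` then for any choice of rigidifications there is
  a unique isomorphism compatible with them.
-/

set_option autoImplicit false

universe u

open CategoryTheory CategoryTheory.Limits AlgebraicGeometry AlgebraicGeometry.RelPicard
  NeronModelInfra

namespace Fermat.Agent.S25.H986

noncomputable section

variable (k : Type u) [Field k] [IsAlgClosed k] {C : Scheme.{u}}
  (c : C ⟶ Spec (CommRingCat.of k)) [IsProper c] [IsIntegral C]
  {T : Scheme.{u}} (t : T ⟶ Spec (CommRingCat.of k))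
  (ε : SchemeHomOver (𝟙 (Spec (CommRingCat.of k))) c)

omit [IsAlgClosed k] [IsProper c] [IsIntegral C] in
theorem rigSection_snd : rigSection c t ε ≫ pullback.snd c t = 𝟙 T := by
  unfold rigSection
  exact pullback.lift_snd _ _ _

/-- F5 in the form used for rigidity: functions on `C ×ₖ T` are the same as functions on `T`,
via restriction to the rigidifying section. -/
theorem rigSection_appTop_bijective : Function.Bijective (rigSection c t ε).appTop := by
  have hp : IsIso (pullback.snd c t).appTop := Fermat.Agent.S25.H205.isIso_snd_appTop k c t
  have h1 : (pullback.snd c t).appTop ≫ (rigSection c t ε).appTop = 𝟙 _ := by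
    rw [← Scheme.Hom.comp_appTop, rigSection_snd]
    rfl
  have h2 : (rigSection c t ε).appTop = inv (pullback.snd c t).appTop := by
    rw [← cancel_epi (pullback.snd c t).appTop, h1, IsIso.hom_inv_id]
  have h3 : IsIso (rigSection c t ε).appTop := by
    rw [h2]
    infer_instance
  exact ConcreteCategory.bijective_of_isIso _

/-- Two isomorphisms of invertible modules on `C ×ₖ T` which agree on the rigidifying section
are equal. -/
theorem rigidified_iso_ext {L L' : (pullback c t).Modules}
    (hL : Scheme.Modules.IsInvertible L) (e e' : L ≅ L')
    (h : (Scheme.Modules.pullback (rigSection c t ε)).map e.hom =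
      (Scheme.Modules.pullback (rigSection c t ε)).map e'.hom) : e = e' :=
  iso_ext_of_pullback_map_eq _ (rigSection_appTop_bijective k c t ε).1 hL e e' h

/-- Isomorphic rigidified line bundles are uniquely isomorphic compatibly with any chosen
rigidifications. -/
theorem rigidified_existsUnique_iso (M M' : RigidifiedLineBundle c ε t)
    (ρ : (Scheme.Modules.pullback (rigSection c t ε)).obj M.L ≅
      SheafOfModules.unit T.ringCatSheaf)
    (ρ' : (Scheme.Modules.pullback (rigSection c t ε)).obj M'.L ≅
      SheafOfModules.unit T.ringCatSheaf)
    (e : M.L ≅ M'.L) :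
    ∃! e' : M.L ≅ M'.L,
      (Scheme.Modules.pullback (rigSection c t ε)).map e'.hom ≫ ρ'.hom = ρ.hom :=
  existsUnique_iso_pullback_map_comp_eq _ (rigSection_appTop_bijective k c t ε) M.isInvertible
    ρ ρ' e

end

end Fermat.Agent.S25.H986
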